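/-
S25 helper (helper146), assembly AS6, part 1: the EVALUATION MORPHISM of a rigidified module.

For `σ : T ⟶ X` and a module `L` on `X`, a morphism `ρ : σ^* L ⟶ 𝒪_T` is the same as a morphism
`e : L ⟶ σ_* 𝒪_T` (adjunction); the latter is explicit on sections:
`e.app W : Γ(L, W) → Γ(T, σ⁻¹ W)`.  If `ρ` is an isomorphism, then `e` has the universal property
`IsRigidification` (every `L ⟶ σ_* N` factors through `e`), and `e` sends local generators of `L`
to units (`isUnit_evalSec`).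
-/
import Mathlib
import Fermat.Prelude.Def_AlgebraicGeometry_RelativePicardFunctor
import Fermat.Agent.S25.H626.LocalGen

set_option autoImplicit false

universe u

noncomputable section

open CategoryTheory AlgebraicGeometry TopologicalSpace Opposite

namespace Fermat.Agent.S25.H146

open Fermat.Agent.S25.H626

variable {X T : Scheme.{u}} (σ : T ⟶ X)

/-- The target of evaluation morphisms: `σ_* 𝒪_T`. -/
abbrev pushUnit : X.Modules := (Scheme.Modules.pushforward σ).obj (unitMod T)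

/-- The evaluation morphism `L ⟶ σ_* 𝒪_T` attached to `ρ : σ^* L ⟶ 𝒪_T`. -/
def evalHom {L : X.Modules} (ρ : (Scheme.Modules.pullback σ).obj L ⟶ unitMod T) :
    L ⟶ pushUnit σ :=
  (Scheme.Modules.pullbackPushforwardAdjunction σ).homEquiv _ _ ρ

variable {σ}

/-- The value of an evaluation morphism on a section, as a function on `σ⁻¹ W`. -/
def evalSec {L : X.Modules} (e : L ⟶ pushUnit σ) (W : X.Opens) (s : Γ(L, W)) :
    Γ(T, σ ⁻¹ᵁ W) :=
  e.app W s

theorem evalSec_add {L : X.Modules} (e : L ⟶ pushUnit σ) (W : X.Opens) (s s' : Γ(L, W)) :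
    evalSec e W (s + s') = evalSec e W s + evalSec e W s' :=
  map_add _ s s'

theorem evalSec_smul {L : X.Modules} (e : L ⟶ pushUnit σ) (W : X.Opens) (r : Γ(X, W))
    (s : Γ(L, W)) : evalSec e W (r • s) = σ.app W r * evalSec e W s := by
  have h := Scheme.Modules.Hom.app_smul e (U := W) r s
  exact h

theorem evalSec_res {L : X.Modules} (e : L ⟶ pushUnit σ) {W W' : X.Opens} (h : W' ≤ W)
    (s : Γ(L, W)) :
    evalSec e W' (res L h s) = resO (σ.preimage_mono h) (evalSec e W s) := by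
  have := app_res e h s
  exact this

/-- **Universal property** of an evaluation morphism coming from an isomorphism
`σ^* L ≅ 𝒪_T`: every morphism `L ⟶ σ_* N` factors through `e`. -/
def IsRigidification {L : X.Modules} (e : L ⟶ pushUnit σ) : Prop :=
  ∀ (N : T.Modules) (h : L ⟶ (Scheme.Modules.pushforward σ).obj N),
    ∃ m : unitMod T ⟶ N, e ≫ (Scheme.Modules.pushforward σ).map m = h

theorem isRigidification_evalHom {L : X.Modules}
    (ρ : (Scheme.Modules.pullback σ).obj L ≅ unitMod T) :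
    IsRigidification (evalHom σ ρ.hom) := by
  intro N h
  refine ⟨ρ.inv ≫ ((Scheme.Modules.pullbackPushforwardAdjunction σ).homEquiv _ _).symm h, ?_⟩
  unfold evalHom
  rw [← Adjunction.homEquiv_naturality_right, Iso.hom_inv_id_assoc, Equiv.apply_symm_apply]

section TrivForm

variable (σ) (W : X.Opens)

/-- The canonical morphism `𝒪_W ⟶ (σ|_W)_* 𝒪_{σ⁻¹W}`. -/
def unitToPush : unitMod W.toScheme ⟶
    (Scheme.Modules.pushforward (σ ∣_ W)).obj (unitMod (σ ⁻¹ᵁ W).toScheme) :=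
  SheafOfModules.unitToPushforwardObjUnit (σ ∣_ W).toRingCatSheafHom

/-- The module `N = j'_* 𝒪_{σ⁻¹W}` on `T`. -/
abbrev pushOpen : T.Modules :=
  (Scheme.Modules.pushforward (σ ⁻¹ᵁ W).ι).obj (unitMod (σ ⁻¹ᵁ W).toScheme)

/-- `j_* (σ|_W)_* 𝒪 ≅ σ_* j'_* 𝒪`. -/
def pushSquareIso :
    (Scheme.Modules.pushforward W.ι).obj
      ((Scheme.Modules.pushforward (σ ∣_ W)).obj (unitMod (σ ⁻¹ᵁ W).toScheme)) ≅
    (Scheme.Modules.pushforward σ).obj (pushOpen σ W) :=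
  (Scheme.Modules.pushforwardComp (σ ∣_ W) W.ι).app _ ≪≫
    (Scheme.Modules.pushforwardCongr (morphismRestrict_ι σ W)).app _ ≪≫
    ((Scheme.Modules.pushforwardComp (σ ⁻¹ᵁ W).ι σ).app _).symm

variable {σ W}
variable {L : X.Modules} (g : L.restrict W.ι ≅ unitMod W.toScheme)

/-- The test morphism `L ⟶ σ_* N`. -/
def testHom : L ⟶ (Scheme.Modules.pushforward σ).obj (pushOpen σ W) :=
  (Scheme.Modules.restrictAdjunction W.ι).homEquiv _ _ (g.hom ≫ unitToPush σ W) ≫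
    (pushSquareIso σ W).hom

theorem testHom_app_genX :
    (testHom g).app (W.ι ''ᵁ ⊤) (genX W.ι L g ⊤) = (1 : Γ((σ ⁻¹ᵁ W).toScheme, _)) := by
  unfold testHom pushSquareIso
  rw [Adjunction.homEquiv_unit]
  simp only [Scheme.Modules.Hom.comp_app, Iso.trans_hom, Iso.app_hom, Iso.symm_hom, Iso.app_inv,
    Scheme.Modules.pushforwardComp_hom_app_app, Scheme.Modules.pushforwardComp_inv_app_app,
    Scheme.Modules.pushforwardCongr_hom_app_app, Scheme.Modules.pushforward_map_app,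
    Scheme.Modules.restrictAdjunction_unit_app_app]
  have h1 : L.presheaf.map (homOfLE (W.ι.image_preimage_le (W.ι ''ᵁ ⊤))).op (genX W.ι L g ⊤) =
      genX W.ι L g (W.ι ⁻¹ᵁ W.ι ''ᵁ ⊤) :=
    res_genX W.ι L g (le_top : W.ι ⁻¹ᵁ W.ι ''ᵁ ⊤ ≤ ⊤)
  have h2 : g.hom.app (W.ι ⁻¹ᵁ W.ι ''ᵁ ⊤) (genX W.ι L g (W.ι ⁻¹ᵁ W.ι ''ᵁ ⊤)) =
      toUnit _ _ 1 := app_hom_inv_apply g _ _
  have h3 : (unitToPush σ W).app (W.ι ⁻¹ᵁ W.ι ''ᵁ ⊤) (toUnit _ _ 1) =
      (1 : Γ((σ ⁻¹ᵁ W).toScheme, (σ ∣_ W) ⁻¹ᵁ (W.ι ⁻¹ᵁ W.ι ''ᵁ ⊤))) := by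
    change (σ ∣_ W).app (W.ι ⁻¹ᵁ W.ι ''ᵁ ⊤) 1 = 1
    exact map_one _
  change ((unitMod (σ ⁻¹ᵁ W).toScheme).presheaf.map (eqToHom _).op)
    (((unitToPush σ W).app (W.ι ⁻¹ᵁ W.ι ''ᵁ ⊤)) ((g.hom.app (W.ι ⁻¹ᵁ W.ι ''ᵁ ⊤))
      ((L.presheaf.map (homOfLE (W.ι.image_preimage_le (W.ι ''ᵁ ⊤))).op) (genX W.ι L g ⊤)))) =
      toUnit _ _ 1
  rw [h1, h2, h3]
  change (σ ⁻¹ᵁ W).toScheme.presheaf.map _ 1 = 1
  exact map_one _

theorem isUnit_evalSec_genX {e : L ⟶ pushUnit σ} (hE : IsRigidification e) :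
    IsUnit (evalSec e (W.ι ''ᵁ ⊤) (genX W.ι L g ⊤)) := by
  obtain ⟨m, hm⟩ := hE (pushOpen σ W) (testHom g)
  have h := congrArg (fun φ => φ.app (W.ι ''ᵁ ⊤) (genX W.ι L g ⊤)) hm
  simp only at h
  rw [testHom_app_genX] at h
  set V : T.Opens := σ ⁻¹ᵁ (W.ι ''ᵁ ⊤) with hV
  set E : Γ(T, V) := evalSec e (W.ι ''ᵁ ⊤) (genX W.ι L g ⊤) with hEdef
  have hVle : V ≤ (σ ⁻¹ᵁ W).ι.opensRange := by
    rw [Scheme.Opens.opensRange_ι, hV, Scheme.Opens.ι_image_top]
  -- the value of `m` on `E`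
  have h1 : m.app V (toUnit T V E) = m.app V (E • toUnit T V 1) := by
    rw [smul_toUnit_one]
  have h2 : m.app V (E • toUnit T V 1) = E • m.app V (toUnit T V 1) :=
    Scheme.Modules.Hom.app_smul m E _
  have h3 : (E • m.app V (toUnit T V 1) : Γ(pushOpen σ W, V)) =
      (show Γ((σ ⁻¹ᵁ W).toScheme, (σ ⁻¹ᵁ W).ι ⁻¹ᵁ V) from
        ((σ ⁻¹ᵁ W).ι.app V E) *
          (show Γ((σ ⁻¹ᵁ W).toScheme, (σ ⁻¹ᵁ W).ι ⁻¹ᵁ V) from m.app V (toUnit T V 1))) := rfl
  have h4 : (e ≫ (Scheme.Modules.pushforward σ).map m).app (W.ι ''ᵁ ⊤) (genX W.ι L g ⊤) =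
      m.app V (toUnit T V E) := rfl
  rw [h4, h1, h2, h3] at h
  have hu : IsUnit ((σ ⁻¹ᵁ W).ι.app V E) := IsUnit.of_mul_eq_one _ h
  have hiso : IsIso ((σ ⁻¹ᵁ W).ι.app V) := Scheme.Hom.isIso_app _ V hVle
  have hbij := (ConcreteCategory.isIso_iff_bijective _).mp hiso
  have := hu.map (inv ((σ ⁻¹ᵁ W).ι.app V)).hom
  rwa [← ConcreteCategory.comp_apply, IsIso.hom_inv_id] at this

end TrivForm


/-! ## Local generators -/

section LocalGenerators

variable {L : X.Modules}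

theorem isLocalGenerator_res {W W' : X.Opens} {s : Γ(L, W)} (hs : IsLocalGenerator L W s)
    (h : W' ≤ W) : IsLocalGenerator L W' (res L h s) := by
  intro V hV
  have := hs V (hV.trans h)
  simpa only [res_res] using this

theorem bijective_smul_of_isLocalGenerator {W : X.Opens} {s : Γ(L, W)}
    (hs : IsLocalGenerator L W s) : Function.Bijective (fun r : Γ(X, W) => r • s) := by
  have := hs W le_rfl
  simpa only [res_id] using this

/-- The ratio of two local generators is a unit. -/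
theorem isUnit_of_smul_eq_of_isLocalGenerator {W : X.Opens} {s s' : Γ(L, W)}
    (hs : IsLocalGenerator L W s) (hs' : IsLocalGenerator L W s') {r : Γ(X, W)}
    (hr : r • s = s') : IsUnit r := by
  obtain ⟨r', hr'⟩ := (bijective_smul_of_isLocalGenerator hs').2 s
  simp only at hr'
  have h1 : (r' * r) • s = (1 : Γ(X, W)) • s := by
    rw [mul_smul, hr, hr', one_smul]
  have h2 : r' * r = 1 := (bijective_smul_of_isLocalGenerator hs).1 h1
  exact IsUnit.of_mul_eq_one_right r' h2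

end LocalGenerators

/-! ## Units are local -/

theorem isUnit_of_locally_isUnit (Y : Scheme.{u}) (V : Y.Opens) (f : Γ(Y, V))
    (h : ∀ x ∈ V, ∃ (V' : Y.Opens) (hle : V' ≤ V), x ∈ V' ∧ IsUnit (resO hle f)) : IsUnit f := by
  apply RingedSpace.isUnit_of_isUnit_germ Y.toRingedSpace V f
  intro x hx
  obtain ⟨V', hle, hxV', hu⟩ := h x hx
  have h1 : Y.presheaf.germ V' x hxV' (resO hle f) = Y.presheaf.germ V x hx f :=
    Y.presheaf.germ_res_apply (homOfLE hle) x hxV' f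
  have h2 := hu.map (Y.presheaf.germ V' x hxV').hom
  rw [← h1]
  exact h2

/-! ## Evaluation sends local generators to units -/

/-- **Claim A.** For an invertible module `L` and a rigidification `e : L ⟶ σ_* 𝒪_T`,
the value of `e` on a local generator is a unit. -/
theorem isUnit_evalSec {L : X.Modules} (hL : Scheme.Modules.IsInvertible L)
    {e : L ⟶ pushUnit σ} (hE : IsRigidification e) {W : X.Opens} {s : Γ(L, W)}
    (hs : IsLocalGenerator L W s) : IsUnit (evalSec e W s) := by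
  apply isUnit_of_locally_isUnit
  intro x hx
  obtain ⟨U, hxU, ⟨iso⟩⟩ := hL.exists_trivialization (σ x)
  let g : L.restrict U.ι ≅ unitMod U.toScheme :=
    (Scheme.Modules.restrictFunctorIsoPullback U.ι).app L ≪≫ iso
  have hU₀ : U.ι ''ᵁ ⊤ = U := Scheme.Opens.ι_image_top U
  have hs₀ : IsLocalGenerator L (U.ι ''ᵁ ⊤) (genX U.ι L g ⊤) := isLocalGenerator_genX U.ι L g
  have hu₀ : IsUnit (evalSec e (U.ι ''ᵁ ⊤) (genX U.ι L g ⊤)) := isUnit_evalSec_genX g hE
  have hxU₀ : σ x ∈ U.ι ''ᵁ ⊤ := by rw [hU₀]; exact hxU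
  have hsW' := isLocalGenerator_res hs (inf_le_left : W ⊓ U.ι ''ᵁ ⊤ ≤ W)
  have hs₀W' := isLocalGenerator_res hs₀ (inf_le_right : W ⊓ U.ι ''ᵁ ⊤ ≤ U.ι ''ᵁ ⊤)
  obtain ⟨r, hr⟩ := (bijective_smul_of_isLocalGenerator hs₀W').2 (res L inf_le_left s)
  simp only at hr
  have hru : IsUnit r := isUnit_of_smul_eq_of_isLocalGenerator hs₀W' hsW' hr
  refine ⟨σ ⁻¹ᵁ (W ⊓ U.ι ''ᵁ ⊤), σ.preimage_mono inf_le_left, ⟨hx, hxU₀⟩, ?_⟩
  rw [← evalSec_res e inf_le_left s, ← hr, evalSec_smul, evalSec_res e inf_le_right]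
  exact (hru.map (σ.app _).hom).mul (hu₀.map (T.presheaf.map _).hom)

end Fermat.Agent.S25.H146
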