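/-
S25 helper (helper146), assembly AS6, part 2: RIGIDITY, sectionwise.

`SecHom L L' V`: a morphism `L|_V ⟶ L'|_V` given on sections over the opens `W ≤ V`.
For modules with local generators:
* `SecHom.exists_smul_eq` (G4, sectionwise): any `f` is `a • f'` for an isomorphism `f'`;
* `exists_ratio` (R1): for evaluation morphisms `e, e'` which are units on generators,
  `e' ∘ f = b • e` for a unit `b` on `σ⁻¹ V`;
* `SecHom.ext_of_normalized` (R2): two normalized isomorphisms (`e' ∘ f = e`) agree, provided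
  functions on `V` are determined by their restriction along `σ`.
-/
import Mathlib
import Fermat.Agent.S25.H146.Eval

set_option autoImplicit false

universe u

noncomputable section

open CategoryTheory AlgebraicGeometry TopologicalSpace Opposite

namespace Fermat.Agent.S25.H146

open Fermat.Agent.S25.H626

variable {X T : Scheme.{u}}

/-- A morphism `L|_V ⟶ L'|_V`, given sectionwise on all opens `W ≤ V`. -/
structure SecHom (L L' : X.Modules) (V : X.Opens) where
  /-- the maps on sections -/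
  app : ∀ W : X.Opens, W ≤ V → Γ(L, W) → Γ(L', W)
  app_add : ∀ (W : X.Opens) (h : W ≤ V) (s s' : Γ(L, W)), app W h (s + s') = app W h s + app W h s'
  app_smul : ∀ (W : X.Opens) (h : W ≤ V) (r : Γ(X, W)) (s : Γ(L, W)),
    app W h (r • s) = r • app W h s
  app_res : ∀ (W W' : X.Opens) (h : W ≤ V) (hle : W' ≤ W) (s : Γ(L, W)),
    app W' (hle.trans h) (res L hle s) = res L' hle (app W h s)

namespace SecHom

variable {L L' : X.Modules} {V : X.Opens}

/-- A sectionwise morphism is an isomorphism if all its components are bijective. -/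
def IsIso (f : SecHom L L' V) : Prop := ∀ (W : X.Opens) (h : W ≤ V), Function.Bijective (f.app W h)

theorem ext' {f f' : SecHom L L' V} (h : ∀ W hW s, f.app W hW s = f'.app W hW s) : f = f' := by
  cases f
  cases f'
  congr
  funext W hW s
  exact h W hW s

/-- Restriction to a smaller open. -/
def restrict (f : SecHom L L' V) {V' : X.Opens} (hV : V' ≤ V) : SecHom L L' V' where
  app W h := f.app W (h.trans hV)
  app_add W h := f.app_add W (h.trans hV)
  app_smul W h := f.app_smul W (h.trans hV)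
  app_res W W' h hle := f.app_res W W' (h.trans hV) hle

theorem isIso_restrict {f : SecHom L L' V} (hf : f.IsIso) {V' : X.Opens} (hV : V' ≤ V) :
    (f.restrict hV).IsIso := fun W h => hf W (h.trans hV)

/-- Scaling by a function on `V`. -/
def smul (a : Γ(X, V)) (f : SecHom L L' V) : SecHom L L' V where
  app W h s := resO h a • f.app W h s
  app_add W h s s' := by rw [f.app_add, smul_add]
  app_smul W h r s := by rw [f.app_smul, smul_comm]
  app_res W W' h hle s := by
    rw [f.app_res, res_smul, resO_resO]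

theorem smul_app (a : Γ(X, V)) (f : SecHom L L' V) (W : X.Opens) (h : W ≤ V) (s : Γ(L, W)) :
    (smul a f).app W h s = resO h a • f.app W h s := rfl

theorem isIso_smul {f : SecHom L L' V} (hf : f.IsIso) {a : Γ(X, V)} (ha : IsUnit a) :
    (smul a f).IsIso := by
  intro W h
  have hu : IsUnit (resO h a) := ha.map (X.presheaf.map (homOfLE h).op).hom
  obtain ⟨u, hu⟩ := hu
  have : (smul a f).app W h = (fun s => (u : Γ(X, W)) • s) ∘ f.app W h := by
    funext s
    rw [smul_app, ← hu]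
    rfl
  rw [this]
  refine Function.Bijective.comp ?_ (hf W h)
  constructor
  · intro s s' hss'
    have := congrArg (fun s => ((u⁻¹ : (Γ(X, W))ˣ) : Γ(X, W)) • s) hss'
    simpa [smul_smul] using this
  · intro s
    exact ⟨((u⁻¹ : (Γ(X, W))ˣ) : Γ(X, W)) • s, by simp [smul_smul]⟩

/-- The image of a local generator under a sectionwise isomorphism is a local generator. -/
theorem isLocalGenerator_app {f : SecHom L L' V} (hf : f.IsIso) {W : X.Opens} (h : W ≤ V)
    {s : Γ(L, W)} (hs : IsLocalGenerator L W s) : IsLocalGenerator L' W (f.app W h s) := by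
  intro W' hle
  have h1 : (fun r : Γ(X, W') => r • res L' hle (f.app W h s)) =
      f.app W' (hle.trans h) ∘ (fun r : Γ(X, W') => r • res L hle s) := by
    funext r
    simp only [Function.comp_apply]
    rw [f.app_smul, f.app_res]
  rw [h1]
  exact (hf W' (hle.trans h)).comp (hs W' hle)

/-- If `f t = c • f' t` for a local generator `t` on `W₀`, then `f = c • f'` on all sections
over opens `W ≤ W₀`. -/
theorem eq_smul_of_generator {f f' : SecHom L L' V} {W₀ : X.Opens} (h₀ : W₀ ≤ V)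
    {t : Γ(L, W₀)} (ht : IsLocalGenerator L W₀ t) {c : Γ(X, W₀)}
    (hc : f.app W₀ h₀ t = c • f'.app W₀ h₀ t) (W : X.Opens) (hW : W ≤ W₀) (s : Γ(L, W)) :
    f.app W (hW.trans h₀) s = resO hW c • f'.app W (hW.trans h₀) s := by
  obtain ⟨r, hr⟩ := (ht W hW).2 s
  simp only at hr
  rw [← hr, f.app_smul, f'.app_smul, f.app_res W₀ W h₀ hW t, f'.app_res W₀ W h₀ hW t, hc,
    res_smul, smul_comm]

/-- **G4, sectionwise.**  Let `L` have local generators and let `f' : L|_V ⟶ L'|_V` be an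
isomorphism.  Then every `f : L|_V ⟶ L'|_V` is of the form `a • f'` for a function `a` on `V`. -/
theorem exists_smul_eq (hL : HasLocalGenerators L) (f f' : SecHom L L' V) (hf' : f'.IsIso) :
    ∃ a : Γ(X, V), ∀ (W : X.Opens) (hW : W ≤ V) (s : Γ(L, W)),
      f.app W hW s = resO hW a • f'.app W hW s := by
  choose U hxU s₀ hs₀ using hL
  let Wc : X → X.Opens := fun x => U x ⊓ V
  have hWV : ∀ x, Wc x ≤ V := fun x => inf_le_right
  let t : ∀ x, Γ(L, Wc x) := fun x => res L inf_le_left (s₀ x)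
  have ht : ∀ x, IsLocalGenerator L (Wc x) (t x) := fun x =>
    isLocalGenerator_res (hs₀ x) inf_le_left
  have ht' : ∀ x, IsLocalGenerator L' (Wc x) (f'.app _ (hWV x) (t x)) := fun x =>
    isLocalGenerator_app hf' (hWV x) (ht x)
  have hex : ∀ x, ∃ c : Γ(X, Wc x), c • f'.app _ (hWV x) (t x) = f.app _ (hWV x) (t x) :=
    fun x => (bijective_smul_of_isLocalGenerator (ht' x)).2 _
  choose c hc using hex
  have hP : ∀ (x : X) (W : X.Opens) (hW : W ≤ Wc x) (s : Γ(L, W)),
      f.app W (hW.trans (hWV x)) s = resO hW (c x) • f'.app W (hW.trans (hWV x)) s :=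
    fun x W hW s => eq_smul_of_generator (hWV x) (ht x) (hc x).symm W hW s
  have hcover : V ≤ iSup Wc := by
    intro x hx
    exact Opens.mem_iSup.mpr ⟨x, hxU x, hx⟩
  have hcompat : ∀ x y, resO (inf_le_left : Wc x ⊓ Wc y ≤ Wc x) (c x) =
      resO (inf_le_right : Wc x ⊓ Wc y ≤ Wc y) (c y) := by
    intro x y
    have hu := isLocalGenerator_res (ht' x) (inf_le_left : Wc x ⊓ Wc y ≤ Wc x)
    apply (bijective_smul_of_isLocalGenerator hu).1
    simp only
    have e1 := hP x (Wc x ⊓ Wc y) inf_le_left (res L inf_le_left (t x))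
    have e2 := hP y (Wc x ⊓ Wc y) inf_le_right (res L inf_le_left (t x))
    rw [f'.app_res (Wc x) (Wc x ⊓ Wc y) (hWV x) inf_le_left (t x)] at e1 e2
    rw [← e1, ← e2]
  obtain ⟨a, ha⟩ := exists_gluing_O Wc V hWV hcover c hcompat
  refine ⟨a, fun W hW s => ?_⟩
  have hcoverW : W ≤ ⨆ x, W ⊓ Wc x := by
    intro x hx
    exact Opens.mem_iSup.mpr ⟨x, hx, hxU x, hW hx⟩
  apply eq_of_locally_eq_M L' (fun x => W ⊓ Wc x) W (fun x => inf_le_left) hcoverW
  intro x
  rw [← f.app_res W (W ⊓ Wc x) hW inf_le_left, res_smul, ← f'.app_res W (W ⊓ Wc x) hW inf_le_left,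
    resO_resO, hP x (W ⊓ Wc x) inf_le_right, ← ha x, resO_resO]

end SecHom

/-! ## Evaluation morphisms and the ratio of a sectionwise isomorphism -/

section Ratio

variable {σ : T ⟶ X} {L L' : X.Modules} {V : X.Opens}

/-- An evaluation morphism is a *unit on generators* if it sends local generators to units. -/
def UnitOnGen (e : L ⟶ pushUnit σ) : Prop :=
  ∀ (W : X.Opens) (s : Γ(L, W)), IsLocalGenerator L W s → IsUnit (evalSec e W s)

theorem unitOnGen_of_isRigidification (hL : Scheme.Modules.IsInvertible L) {e : L ⟶ pushUnit σ}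
    (hE : IsRigidification e) : UnitOnGen e :=
  fun _ _ hs => isUnit_evalSec hL hE hs

/-- If `e' (f t) = b * e t` for a local generator `t` on `W₀`, the same holds for all sections
over all opens `W ≤ W₀`. -/
theorem evalSec_app_eq_of_generator {e : L ⟶ pushUnit σ} {e' : L' ⟶ pushUnit σ}
    (f : SecHom L L' V) {W₀ : X.Opens} (h₀ : W₀ ≤ V) {t : Γ(L, W₀)}
    (ht : IsLocalGenerator L W₀ t) {b : Γ(T, σ ⁻¹ᵁ W₀)}
    (hb : evalSec e' W₀ (f.app W₀ h₀ t) = b * evalSec e W₀ t)
    (W : X.Opens) (hW : W ≤ W₀) (s : Γ(L, W)) :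
    evalSec e' W (f.app W (hW.trans h₀) s) = resO (σ.preimage_mono hW) b * evalSec e W s := by
  obtain ⟨r, hr⟩ := (ht W hW).2 s
  simp only at hr
  rw [← hr, f.app_smul, evalSec_smul, evalSec_smul, f.app_res W₀ W h₀ hW t, evalSec_res,
    evalSec_res, hb, resO_mul]
  ring

/-- **R1.** The ratio of a sectionwise isomorphism with respect to two evaluation morphisms. -/
theorem exists_ratio (hL : HasLocalGenerators L) {e : L ⟶ pushUnit σ} {e' : L' ⟶ pushUnit σ}
    (he : UnitOnGen e) (he' : UnitOnGen e') (f : SecHom L L' V) (hf : f.IsIso) :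
    ∃ b : Γ(T, σ ⁻¹ᵁ V), IsUnit b ∧ ∀ (W : X.Opens) (hW : W ≤ V) (s : Γ(L, W)),
      evalSec e' W (f.app W hW s) = resO (σ.preimage_mono hW) b * evalSec e W s := by
  choose U hxU s₀ hs₀ using hL
  let Wc : T → X.Opens := fun x => U (σ x) ⊓ V
  have hWV : ∀ x, Wc x ≤ V := fun x => inf_le_right
  let t : ∀ x, Γ(L, Wc x) := fun x => res L inf_le_left (s₀ (σ x))
  have ht : ∀ x, IsLocalGenerator L (Wc x) (t x) := fun x =>
    isLocalGenerator_res (hs₀ (σ x)) inf_le_left
  have hue : ∀ x, IsUnit (evalSec e (Wc x) (t x)) := fun x => he _ _ (ht x)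
  have hue' : ∀ x, IsUnit (evalSec e' (Wc x) (f.app _ (hWV x) (t x))) := fun x =>
    he' _ _ (SecHom.isLocalGenerator_app hf (hWV x) (ht x))
  have hex : ∀ x, ∃ b : Γ(T, σ ⁻¹ᵁ Wc x), IsUnit b ∧
      evalSec e' (Wc x) (f.app _ (hWV x) (t x)) = b * evalSec e (Wc x) (t x) := by
    intro x
    refine ⟨evalSec e' (Wc x) (f.app _ (hWV x) (t x)) *
      ((hue x).unit⁻¹ : (Γ(T, σ ⁻¹ᵁ Wc x))ˣ), (hue' x).mul (Units.isUnit _), ?_⟩
    rw [mul_assoc, IsUnit.val_inv_mul, mul_one]
  choose b hbu hb using hex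
  have hP : ∀ (x : T) (W : X.Opens) (hW : W ≤ Wc x) (s : Γ(L, W)),
      evalSec e' W (f.app W (hW.trans (hWV x)) s) =
        resO (σ.preimage_mono hW) (b x) * evalSec e W s :=
    fun x W hW s => evalSec_app_eq_of_generator f (hWV x) (ht x) (hb x) W hW s
  have hcover : σ ⁻¹ᵁ V ≤ ⨆ x, σ ⁻¹ᵁ Wc x := by
    intro x hx
    exact Opens.mem_iSup.mpr ⟨x, hxU (σ x), hx⟩
  have hcompat : ∀ x y,
      resO (inf_le_left : σ ⁻¹ᵁ Wc x ⊓ σ ⁻¹ᵁ Wc y ≤ σ ⁻¹ᵁ Wc x) (b x) =
        resO (inf_le_right : σ ⁻¹ᵁ Wc x ⊓ σ ⁻¹ᵁ Wc y ≤ σ ⁻¹ᵁ Wc y) (b y) := by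
    intro x y
    have hu : IsUnit (evalSec e (Wc x ⊓ Wc y) (res L inf_le_left (t x))) :=
      he _ _ (isLocalGenerator_res (ht x) inf_le_left)
    have e1 := hP x (Wc x ⊓ Wc y) inf_le_left (res L inf_le_left (t x))
    have e2 := hP y (Wc x ⊓ Wc y) inf_le_right (res L inf_le_left (t x))
    rw [e1] at e2
    exact hu.mul_left_injective e2
  obtain ⟨b₀, hb₀⟩ := exists_gluing_O (fun x => σ ⁻¹ᵁ Wc x) (σ ⁻¹ᵁ V)
    (fun x => σ.preimage_mono (hWV x)) hcover b hcompat
  refine ⟨b₀, ?_, fun W hW s => ?_⟩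
  · apply isUnit_of_locally_isUnit
    intro x hx
    refine ⟨σ ⁻¹ᵁ Wc x, σ.preimage_mono (hWV x), ⟨hxU (σ x), hx⟩, ?_⟩
    rw [hb₀]
    exact hbu x
  · have hcoverW : σ ⁻¹ᵁ W ≤ ⨆ x, σ ⁻¹ᵁ (W ⊓ Wc x) := by
      intro x hx
      exact Opens.mem_iSup.mpr ⟨x, hx, hxU (σ x), hW hx⟩
    apply eq_of_locally_eq_O (fun x => σ ⁻¹ᵁ (W ⊓ Wc x)) (σ ⁻¹ᵁ W)
      (fun x => σ.preimage_mono inf_le_left) hcoverW
    intro x
    have hA : resO (σ.preimage_mono (inf_le_left : W ⊓ Wc x ≤ W)) (evalSec e' W (f.app W hW s)) =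
        evalSec e' (W ⊓ Wc x) (f.app (W ⊓ Wc x) (inf_le_left.trans hW) (res L inf_le_left s)) := by
      rw [f.app_res W (W ⊓ Wc x) hW inf_le_left, evalSec_res]
    have hB := hP x (W ⊓ Wc x) inf_le_right (res L inf_le_left s)
    have hC : resO (σ.preimage_mono (inf_le_left : W ⊓ Wc x ≤ W))
        (resO (σ.preimage_mono hW) b₀ * evalSec e W s) =
        resO (σ.preimage_mono (inf_le_right : W ⊓ Wc x ≤ Wc x)) (b x) *
          evalSec e (W ⊓ Wc x) (res L inf_le_left s) := by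
      rw [resO_mul, resO_resO, ← hb₀ x, resO_resO, evalSec_res]
    rw [hA, hB, hC]

end Ratio

/-! ## Restriction of functions along `σ` -/

section AppLE

variable (σ : T ⟶ X)

theorem app_resO_eq_appLE {V W : X.Opens} (hW : W ≤ V) (a : Γ(X, V)) :
    σ.app W (resO hW a) = σ.appLE V (σ ⁻¹ᵁ W) (σ.preimage_mono hW) a := by
  have h := Scheme.Hom.map_appLE σ (le_refl (σ ⁻¹ᵁ W)) (homOfLE hW).op
  rw [Scheme.Hom.appLE_eq_app] at h
  exact congr($h a)

theorem resO_appLE {V : X.Opens} {U U' : T.Opens} (hUV : U ≤ σ ⁻¹ᵁ V) (h : U' ≤ U)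
    (a : Γ(X, V)) : resO h (σ.appLE V U hUV a) = σ.appLE V U' (h.trans hUV) a := by
  have h1 := Scheme.Hom.appLE_map σ hUV (homOfLE h).op
  exact congr($h1 a)

end AppLE

/-! ## Rigidity -/

section Rigidity

variable {σ : T ⟶ X} {L L' : X.Modules} {V : X.Opens}

/-- A sectionwise morphism is *normalized* if it is compatible with the evaluation morphisms. -/
def SecHom.IsNormalized (e : L ⟶ pushUnit σ) (e' : L' ⟶ pushUnit σ) (f : SecHom L L' V) : Prop :=
  ∀ (W : X.Opens) (hW : W ≤ V) (s : Γ(L, W)), evalSec e' W (f.app W hW s) = evalSec e W s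

theorem SecHom.isNormalized_restrict {e : L ⟶ pushUnit σ} {e' : L' ⟶ pushUnit σ}
    {f : SecHom L L' V} (hf : f.IsNormalized e e') {V' : X.Opens} (hV : V' ≤ V) :
    (f.restrict hV).IsNormalized e e' := fun W hW s => hf W (hW.trans hV) s

/-- **R2 (rigidity).**  Two normalized sectionwise isomorphisms over `V` agree, provided
functions on `V` are determined by their restrictions along `σ`. -/
theorem SecHom.eq_of_isNormalized (hL : HasLocalGenerators L) {e : L ⟶ pushUnit σ}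
    {e' : L' ⟶ pushUnit σ} (he : UnitOnGen e) (U : T.Opens) (hUV : U ≤ σ ⁻¹ᵁ V)
    (hinj : ∀ a : Γ(X, V), σ.appLE V U hUV a = 1 → a = 1)
    {f f' : SecHom L L' V} (hf' : f'.IsIso) (hn : f.IsNormalized e e')
    (hn' : f'.IsNormalized e e') : f = f' := by
  obtain ⟨a, ha⟩ := SecHom.exists_smul_eq hL f f' hf'
  have ha1 : a = 1 := by
    apply hinj
    choose U₀ hxU s₀ hs₀ using hL
    have hcover : U ≤ ⨆ x : T, U ⊓ σ ⁻¹ᵁ (U₀ (σ x) ⊓ V) := by
      intro x hx
      exact Opens.mem_iSup.mpr ⟨x, hx, hxU (σ x), hUV hx⟩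
    apply eq_of_locally_eq_O (fun x : T => U ⊓ σ ⁻¹ᵁ (U₀ (σ x) ⊓ V)) U (fun x => inf_le_left)
      hcover
    intro x
    have ht : IsLocalGenerator L (U₀ (σ x) ⊓ V) (res L inf_le_left (s₀ (σ x))) :=
      isLocalGenerator_res (hs₀ (σ x)) inf_le_left
    have hu := he _ _ ht
    have h1 := hn (U₀ (σ x) ⊓ V) inf_le_right (res L inf_le_left (s₀ (σ x)))
    rw [ha, evalSec_smul, hn'] at h1
    have h2 : σ.app (U₀ (σ x) ⊓ V) (resO inf_le_right a) = 1 := by
      apply hu.mul_left_injective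
      simp only
      rw [h1, one_mul]
    rw [app_resO_eq_appLE] at h2
    have h3 := resO_appLE σ (σ.preimage_mono (inf_le_right : U₀ (σ x) ⊓ V ≤ V))
      (inf_le_right : U ⊓ σ ⁻¹ᵁ (U₀ (σ x) ⊓ V) ≤ σ ⁻¹ᵁ (U₀ (σ x) ⊓ V)) a
    rw [resO_appLE σ hUV, resO_one, ← h3, h2, resO_one]
  apply SecHom.ext'
  intro W hW s
  rw [ha, ha1, resO_one, one_smul]

/-- **Normalization.**  If restriction along `σ` is a bijection from functions on `V` to
functions on `U = σ⁻¹ V`, every sectionwise isomorphism can be normalized. -/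
theorem SecHom.exists_isNormalized (hL : HasLocalGenerators L) {e : L ⟶ pushUnit σ}
    {e' : L' ⟶ pushUnit σ} (he : UnitOnGen e) (he' : UnitOnGen e') (U : T.Opens)
    (hUV : U ≤ σ ⁻¹ᵁ V) (hVU : σ ⁻¹ᵁ V ≤ U)
    (hbij : Function.Bijective (σ.appLE V U hUV).hom)
    (f : SecHom L L' V) (hf : f.IsIso) :
    ∃ f₁ : SecHom L L' V, f₁.IsIso ∧ f₁.IsNormalized e e' := by
  obtain ⟨b₀, hb₀u, hb₀⟩ := exists_ratio hL he he' f hf
  have hb₁u : IsUnit (resO hUV b₀) := hb₀u.map (T.presheaf.map (homOfLE hUV).op).hom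
  obtain ⟨b₁, hb₁⟩ := hb₁u
  obtain ⟨a, ha⟩ := hbij.2 ((b₁⁻¹ : (Γ(T, U))ˣ) : Γ(T, U))
  obtain ⟨a', ha'⟩ := hbij.2 (b₁ : Γ(T, U))
  have haa' : a * a' = 1 := by
    apply hbij.1
    rw [map_mul, ha, ha', map_one, Units.inv_mul]
  have hau : IsUnit a := IsUnit.of_mul_eq_one a' haa'
  refine ⟨SecHom.smul a f, SecHom.isIso_smul hf hau, fun W hW s => ?_⟩
  rw [SecHom.smul_app, evalSec_smul, hb₀, ← mul_assoc]
  have h1 : σ.app W (resO hW a) = resO ((σ.preimage_mono hW).trans hVU)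
      ((b₁⁻¹ : (Γ(T, U))ˣ) : Γ(T, U)) := by
    rw [app_resO_eq_appLE, ← ha]
    exact (resO_appLE σ hUV ((σ.preimage_mono hW).trans hVU) a).symm
  have h2 : resO (σ.preimage_mono hW) b₀ = resO ((σ.preimage_mono hW).trans hVU) (b₁ : Γ(T, U)) := by
    rw [hb₁, resO_resO]
  rw [h1, h2, ← resO_mul, Units.inv_mul, resO_one, one_mul]

end Rigidity

end Fermat.Agent.S25.H146
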