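/-
S25 helper (helper146), assembly AS6, part 3: sectionwise morphisms from morphisms of pullbacks
along open immersions, and gluing of compatible families of sectionwise morphisms.
-/
import Mathlib
import Fermat.Agent.S25.H806.GluePullback
import Fermat.Agent.S25.H146.Rigid

set_option autoImplicit false

universe u

noncomputable section

open CategoryTheory AlgebraicGeometry TopologicalSpace Opposite

namespace Fermat.Agent.S25.H146

open Fermat.Agent.S25.H626
open AlgebraicGeometry.Scheme.Modules (pullback pushforward)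

variable {X Y : Scheme.{u}}

/-! ## `onOpen` is functorial -/

section OnOpen

variable (g : Y ⟶ X) [IsOpenImmersion g] {M N K : X.Modules}

theorem onOpen_comp (φ : (pullback g).obj M ⟶ (pullback g).obj N)
    (φ' : (pullback g).obj N ⟶ (pullback g).obj K) (V : X.Opens) (hV : V ≤ g.opensRange) :
    H806.onOpen g (φ ≫ φ') V hV = H806.onOpen g φ V hV ≫ H806.onOpen g φ' V hV := by
  symm
  rw [H806.onOpen_eq_iff, Category.assoc, H806.onOpen_comp_pbUnit]
  have h1 : H806.transpose g (φ ≫ φ') = H806.transpose g φ ≫ (pushforward g).map φ' :=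
    Adjunction.homEquiv_naturality_right _ _ _
  rw [h1, H806.transpose_eq g φ', Scheme.Modules.Hom.comp_app, Scheme.Modules.Hom.comp_app,
    ← Category.assoc, H806.onOpen_comp_pbUnit]

theorem onOpen_id (V : X.Opens) (hV : V ≤ g.opensRange) :
    H806.onOpen g (𝟙 ((pullback g).obj M)) V hV = 𝟙 _ := by
  have := H806.onOpen_map g (𝟙 M) V hV
  rw [CategoryTheory.Functor.map_id] at this
  exact this

/-- The sectionwise morphism attached to a morphism of pullbacks along an open immersion. -/
def secHomOfPullbackHom (φ : (pullback g).obj M ⟶ (pullback g).obj N) (V : X.Opens)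
    (hV : V ≤ g.opensRange) : SecHom M N V where
  app W h := H806.onOpen g φ W (h.trans hV)
  app_add W h s s' := map_add _ s s'
  app_smul W h r s := H806.onOpen_smul g φ W (h.trans hV) r s
  app_res W W' h hle s := by
    have := H806.onOpen_naturality g φ hle (h.trans hV)
    exact congr($this s)

theorem secHomOfPullbackHom_app (φ : (pullback g).obj M ⟶ (pullback g).obj N) (V : X.Opens)
    (hV : V ≤ g.opensRange) (W : X.Opens) (h : W ≤ V) (s : Γ(M, W)) :
    (secHomOfPullbackHom g φ V hV).app W h s = H806.onOpen g φ W (h.trans hV) s := rfl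

theorem isIso_secHomOfPullbackIso (φ : (pullback g).obj M ≅ (pullback g).obj N) (V : X.Opens)
    (hV : V ≤ g.opensRange) : (secHomOfPullbackHom g φ.hom V hV).IsIso := by
  intro W h
  have h1 : H806.onOpen g φ.hom W (h.trans hV) ≫ H806.onOpen g φ.inv W (h.trans hV) = 𝟙 _ := by
    rw [← onOpen_comp, Iso.hom_inv_id, onOpen_id]
  have h2 : H806.onOpen g φ.inv W (h.trans hV) ≫ H806.onOpen g φ.hom W (h.trans hV) = 𝟙 _ := by
    rw [← onOpen_comp, Iso.inv_hom_id, onOpen_id]
  refine Function.bijective_iff_has_inverse.mpr ⟨H806.onOpen g φ.inv W (h.trans hV), ?_, ?_⟩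
  · intro s
    exact congr($h1 s)
  · intro s
    exact congr($h2 s)

end OnOpen

/-! ## Gluing sectionwise morphisms -/

section Glue

variable {ι : Type*} {L L' : X.Modules} (V : ι → X.Opens)

theorem isBasis_le_cover (hV : ⨆ i, V i = ⊤) :
    Opens.IsBasis (Set.range fun p : {p : ι × X.Opens // p.2 ≤ V p.1} => p.1.2) := by
  rw [Opens.isBasis_iff_nbhd]
  intro W x hx
  have hx' : x ∈ ⨆ i, V i := by rw [hV]; trivial
  obtain ⟨i, hi⟩ := Opens.mem_iSup.mp hx'
  exact ⟨_, ⟨⟨⟨i, W ⊓ V i⟩, inf_le_right⟩, rfl⟩, ⟨hx, hi⟩, inf_le_left⟩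

/-- The component of a sectionwise morphism as a morphism of abelian groups. -/
def SecHom.appHom {V₀ : X.Opens} (f : SecHom L L' V₀) (W : X.Opens) (h : W ≤ V₀) :
    Γ(L, W) ⟶ Γ(L', W) :=
  AddCommGrpCat.ofHom (AddMonoidHom.mk' (f.app W h) (f.app_add W h))

@[simp] theorem SecHom.appHom_apply {V₀ : X.Opens} (f : SecHom L L' V₀) (W : X.Opens)
    (h : W ≤ V₀) (s : Γ(L, W)) : f.appHom W h s = f.app W h s := rfl

/-- **Gluing.** A compatible family of sectionwise morphisms over an open cover glues to a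
morphism of modules. -/
theorem exists_hom_of_secHoms (hV : ⨆ i, V i = ⊤) (f : ∀ i, SecHom L L' (V i))
    (hcompat : ∀ (i j : ι) (W : X.Opens) (hi : W ≤ V i) (hj : W ≤ V j) (s : Γ(L, W)),
      (f i).app W hi s = (f j).app W hj s) :
    ∃ ψ : L ⟶ L', ∀ (i : ι) (W : X.Opens) (h : W ≤ V i) (s : Γ(L, W)),
      ψ.app W s = (f i).app W h s := by
  obtain ⟨ψ, hψ, -⟩ := H806.existsUnique_hom_of_basis (isBasis_le_cover V hV) L L'
    (fun p => (f p.1.1).appHom p.1.2 p.2)
    (fun p q h => by
      ext s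
      simp only [ConcreteCategory.comp_apply, SecHom.appHom_apply]
      rw [hcompat p.1.1 q.1.1 p.1.2 p.2 (h.trans q.2)]
      exact (f q.1.1).app_res q.1.2 p.1.2 q.2 h s)
    (fun p r x => (f p.1.1).app_smul p.1.2 p.2 r x)
  refine ⟨ψ, fun i W h s => ?_⟩
  have := hψ ⟨(i, W), h⟩
  exact congr($this s)

/-- A morphism of modules whose components over the members of a basis-like cover are
bijective is an isomorphism. -/
theorem isIso_of_secHoms (hV : ⨆ i, V i = ⊤) (f : ∀ i, SecHom L L' (V i))
    (hf : ∀ i, (f i).IsIso) (ψ : L ⟶ L')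
    (hψ : ∀ (i : ι) (W : X.Opens) (h : W ≤ V i) (s : Γ(L, W)), ψ.app W s = (f i).app W h s) :
    IsIso ψ := by
  have hcov : ∀ x : X, ∃ i, x ∈ Set.range (V i).ι := by
    intro x
    have hx' : x ∈ ⨆ i, V i := by rw [hV]; trivial
    obtain ⟨i, hi⟩ := Opens.mem_iSup.mp hx'
    exact ⟨i, by simpa using hi⟩
  refine H806.isIso_of_cover (f := fun i => (V i).ι) hcov ψ (fun i => ?_)
  rw [Scheme.Modules.Hom.isIso_iff_isIso_app]
  intro W
  have hle : (V i).ι ''ᵁ W ≤ V i := by
    have := Scheme.Hom.image_le_opensRange (V i).ι W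
    rwa [Scheme.Opens.opensRange_ι] at this
  have hb : Function.Bijective (ψ.app ((V i).ι ''ᵁ W)) := by
    have : (ψ.app ((V i).ι ''ᵁ W) : Γ(L, (V i).ι ''ᵁ W) → Γ(L', (V i).ι ''ᵁ W)) =
        (f i).app _ hle := by
      funext s
      exact hψ i _ hle s
    rw [this]
    exact hf i _ hle
  exact (ConcreteCategory.isIso_iff_bijective (C := Ab) (ψ.app ((V i).ι ''ᵁ W))).mpr hb

end Glue

end Fermat.Agent.S25.H146
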