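/-
S25 helper (helper146), assembly AS6, part 5: RIGIDITY, local sectionwise form.

The modules `P` are only "nice" over an open `V` of `X`: they have local generators near the
points of `V` and carry an evaluation `e : P|_V ⟶ (σ_* 𝒪_T)|_V` (a `LocHom V P (funMod σ)`)
sending local generators to units.  For such data:
* `loc_exists_smul_eq` (G4, local): any `f : P|_V ⟶ Q|_V` is `a • f'` for a bijective `f'`;
* `loc_exists_ratio` (R1): `e' ∘ f = b • e` for a unit `b` on `σ⁻¹ V`;
* `loc_eq_of_normalized` (R2): two normalized bijective `f, f'` (`e' ∘ f = e`) agree, provided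
  functions on `V` are determined by their restriction along `σ`;
* `loc_exists_normalized`: bijective `f` can be normalized if restriction along `σ` is bijective.
-/
import Mathlib
import Fermat.Agent.S25.H326.Rig
import Fermat.Agent.S25.H146.Rigid

set_option autoImplicit false

universe u

noncomputable section

open CategoryTheory AlgebraicGeometry TopologicalSpace Opposite

namespace Fermat.Agent.S25.H146

open Fermat.Agent.S25.H626
open Fermat.Agent.S25.H326 (LocHom funMod pfTo)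

variable {X T : Scheme.{u}}

/-! ## Sectionwise morphisms over an open: bijectivity, scaling, generators -/

section LocHomAPI

variable {G : X.Opens} {P Q R : X.Modules}

/-- A sectionwise morphism over `G` is bijective if all its components are. -/
def LocBij (f : LocHom G P Q) : Prop :=
  ∀ (W : X.Opens) (hW : W ≤ G), Function.Bijective (f.app W hW)

theorem locBij_restrict {f : LocHom G P Q} (hf : LocBij f) {G' : X.Opens} (h : G' ≤ G) :
    LocBij (f.restrict h) := fun W hW => hf W (hW.trans h)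

theorem locBij_comp {f : LocHom G P Q} {g : LocHom G Q R} (hf : LocBij f) (hg : LocBij g) :
    LocBij (f.comp g) := fun W hW => (hg W hW).comp (hf W hW)

theorem locBij_id (G : X.Opens) (P : X.Modules) : LocBij (LocHom.id G P) :=
  fun _ _ => Function.bijective_id

/-- Scaling a sectionwise morphism by a function on `G`. -/
def locSmul (a : Γ(X, G)) (f : LocHom G P Q) : LocHom G P Q where
  app W h := AddMonoidHom.mk' (fun s => resO h a • f.app W h s) (fun s s' => by
    rw [map_add, smul_add])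
  app_smul W h r s := by
    simp only [AddMonoidHom.mk'_apply]
    rw [f.app_smul, smul_comm]
  app_res W W' h hle s := by
    simp only [AddMonoidHom.mk'_apply]
    rw [f.app_res, res_smul, resO_resO]

theorem locSmul_app (a : Γ(X, G)) (f : LocHom G P Q) (W : X.Opens) (h : W ≤ G) (s : Γ(P, W)) :
    (locSmul a f).app W h s = resO h a • f.app W h s := rfl

theorem locBij_smul {f : LocHom G P Q} (hf : LocBij f) {a : Γ(X, G)} (ha : IsUnit a) :
    LocBij (locSmul a f) := by
  intro W h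
  have hu : IsUnit (resO h a) := ha.map (X.presheaf.map (homOfLE h).op).hom
  obtain ⟨u, hu⟩ := hu
  have : ((locSmul a f).app W h : Γ(P, W) → Γ(Q, W)) =
      (fun s => (u : Γ(X, W)) • s) ∘ f.app W h := by
    funext s
    rw [locSmul_app, ← hu]
    rfl
  rw [this]
  refine Function.Bijective.comp ?_ (hf W h)
  constructor
  · intro s s' hss'
    have := congrArg (fun s => ((u⁻¹ : (Γ(X, W))ˣ) : Γ(X, W)) • s) hss'
    simpa [smul_smul] using this
  · intro s
    exact ⟨((u⁻¹ : (Γ(X, W))ˣ) : Γ(X, W)) • s, by simp [smul_smul]⟩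

/-- The image of a local generator under a bijective sectionwise morphism is a local
generator. -/
theorem isLocalGenerator_locApp {f : LocHom G P Q} (hf : LocBij f) {W : X.Opens} (h : W ≤ G)
    {s : Γ(P, W)} (hs : IsLocalGenerator P W s) : IsLocalGenerator Q W (f.app W h s) := by
  intro W' hle
  have h1 : (fun r : Γ(X, W') => r • res Q hle (f.app W h s)) =
      f.app W' (hle.trans h) ∘ (fun r : Γ(X, W') => r • res P hle s) := by
    funext r
    simp only [Function.comp_apply]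
    rw [f.app_smul, f.app_res]
  rw [h1]
  exact (hf W' (hle.trans h)).comp (hs W' hle)

/-- A section whose image under a bijective sectionwise morphism is a local generator is a
local generator. -/
theorem isLocalGenerator_of_locApp {f : LocHom G P Q} (hf : LocBij f) {W : X.Opens} (h : W ≤ G)
    {s : Γ(P, W)} (hs : IsLocalGenerator Q W (f.app W h s)) : IsLocalGenerator P W s := by
  intro W' hle
  have h1 : f.app W' (hle.trans h) ∘ (fun r : Γ(X, W') => r • res P hle s) =
      (fun r : Γ(X, W') => r • res Q hle (f.app W h s)) := by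
    funext r
    simp only [Function.comp_apply]
    rw [f.app_smul, f.app_res]
  have h2 : Function.Bijective
      (f.app W' (hle.trans h) ∘ (fun r : Γ(X, W') => r • res P hle s)) := by
    rw [h1]
    exact hs W' hle
  exact (Function.Bijective.of_comp_iff' (hf W' (hle.trans h)) _).mp h2

/-- If `f t = c • f' t` for a local generator `t` on `W₀`, then `f = c • f'` on all sections
over opens `W ≤ W₀`. -/
theorem loc_eq_smul_of_generator {f f' : LocHom G P Q} {W₀ : X.Opens} (h₀ : W₀ ≤ G)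
    {t : Γ(P, W₀)} (ht : IsLocalGenerator P W₀ t) {c : Γ(X, W₀)}
    (hc : f.app W₀ h₀ t = c • f'.app W₀ h₀ t) (W : X.Opens) (hW : W ≤ W₀) (s : Γ(P, W)) :
    f.app W (hW.trans h₀) s = resO hW c • f'.app W (hW.trans h₀) s := by
  obtain ⟨r, hr⟩ := (ht W hW).2 s
  simp only at hr
  rw [← hr, f.app_smul, f'.app_smul, f.app_res W₀ W h₀ hW t, f'.app_res W₀ W h₀ hW t, hc,
    res_smul, smul_comm]

/-- `P` has local generators near every point of `V`. -/
def HasLocalGeneratorsOn (P : X.Modules) (V : X.Opens) : Prop :=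
  ∀ x : X, x ∈ V → ∃ W : X.Opens, x ∈ W ∧ ∃ s : Γ(P, W), IsLocalGenerator P W s

theorem hasLocalGeneratorsOn_mono {P : X.Modules} {V V' : X.Opens}
    (h : HasLocalGeneratorsOn P V) (hle : V' ≤ V) : HasLocalGeneratorsOn P V' :=
  fun x hx => h x (hle hx)

theorem hasLocalGeneratorsOn_of_hasLocalGenerators {P : X.Modules} (h : HasLocalGenerators P)
    (V : X.Opens) : HasLocalGeneratorsOn P V := fun x _ => h x

/-- Local generators are transported backwards along bijective sectionwise morphisms. -/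
theorem hasLocalGeneratorsOn_of_locBij {f : LocHom G P Q} (hf : LocBij f)
    (hQ : HasLocalGeneratorsOn Q G) : HasLocalGeneratorsOn P G := by
  intro x hx
  obtain ⟨W, hxW, s, hs⟩ := hQ x hx
  have hle : W ⊓ G ≤ G := inf_le_right
  obtain ⟨s', hs'⟩ := (hf (W ⊓ G) hle).2 (res Q inf_le_left s)
  refine ⟨W ⊓ G, ⟨hxW, hx⟩, s', isLocalGenerator_of_locApp hf hle ?_⟩
  rw [hs']
  exact isLocalGenerator_res hs inf_le_left

/-- **G4, local sectionwise form.**  Let `P` have local generators on `V` and let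
`f' : P|_V ⟶ Q|_V` be bijective.  Then every `f : P|_V ⟶ Q|_V` is of the form `a • f'` for a
function `a` on `V`. -/
theorem loc_exists_smul_eq {V : X.Opens} (hP : HasLocalGeneratorsOn P V) (f f' : LocHom V P Q)
    (hf' : LocBij f') :
    ∃ a : Γ(X, V), ∀ (W : X.Opens) (hW : W ≤ V) (s : Γ(P, W)),
      f.app W hW s = resO hW a • f'.app W hW s := by
  choose U hxU s₀ hs₀ using hP
  let Wc : V → X.Opens := fun x => U x.1 x.2 ⊓ V
  have hWV : ∀ x, Wc x ≤ V := fun x => inf_le_right
  let t : ∀ x, Γ(P, Wc x) := fun x => res P inf_le_left (s₀ x.1 x.2)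
  have ht : ∀ x, IsLocalGenerator P (Wc x) (t x) := fun x =>
    isLocalGenerator_res (hs₀ x.1 x.2) inf_le_left
  have ht' : ∀ x, IsLocalGenerator Q (Wc x) (f'.app _ (hWV x) (t x)) := fun x =>
    isLocalGenerator_locApp hf' (hWV x) (ht x)
  have hex : ∀ x, ∃ c : Γ(X, Wc x), c • f'.app _ (hWV x) (t x) = f.app _ (hWV x) (t x) :=
    fun x => (bijective_smul_of_isLocalGenerator (ht' x)).2 _
  choose c hc using hex
  have hPP : ∀ (x : V) (W : X.Opens) (hW : W ≤ Wc x) (s : Γ(P, W)),
      f.app W (hW.trans (hWV x)) s = resO hW (c x) • f'.app W (hW.trans (hWV x)) s :=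
    fun x W hW s => loc_eq_smul_of_generator (hWV x) (ht x) (hc x).symm W hW s
  have hcover : V ≤ iSup Wc := by
    intro x hx
    exact Opens.mem_iSup.mpr ⟨⟨x, hx⟩, hxU x hx, hx⟩
  have hcompat : ∀ x y, resO (inf_le_left : Wc x ⊓ Wc y ≤ Wc x) (c x) =
      resO (inf_le_right : Wc x ⊓ Wc y ≤ Wc y) (c y) := by
    intro x y
    have hu := isLocalGenerator_res (ht' x) (inf_le_left : Wc x ⊓ Wc y ≤ Wc x)
    apply (bijective_smul_of_isLocalGenerator hu).1
    simp only
    have e1 := hPP x (Wc x ⊓ Wc y) inf_le_left (res P inf_le_left (t x))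
    have e2 := hPP y (Wc x ⊓ Wc y) inf_le_right (res P inf_le_left (t x))
    rw [f'.app_res (Wc x) (Wc x ⊓ Wc y) (hWV x) inf_le_left (t x)] at e1 e2
    rw [← e1, ← e2]
  obtain ⟨a, ha⟩ := exists_gluing_O Wc V hWV hcover c hcompat
  refine ⟨a, fun W hW s => ?_⟩
  have hcoverW : W ≤ ⨆ x : V, W ⊓ Wc x := by
    intro x hx
    exact Opens.mem_iSup.mpr ⟨⟨x, hW hx⟩, hx, hxU x (hW hx), hW hx⟩
  apply eq_of_locally_eq_M Q (fun x : V => W ⊓ Wc x) W (fun x => inf_le_left) hcoverW
  intro x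
  rw [← f.app_res W (W ⊓ Wc x) hW inf_le_left, res_smul, ← f'.app_res W (W ⊓ Wc x) hW inf_le_left,
    resO_resO, hPP x (W ⊓ Wc x) inf_le_right, ← ha x, resO_resO]

end LocHomAPI

/-! ## Local evaluations -/

section LocEval

variable {σ : T ⟶ X} {P Q : X.Modules} {V : X.Opens}

/-- The value of a local evaluation `e : P|_V ⟶ (σ_* 𝒪_T)|_V` on a section, as a function on
`σ⁻¹ W`. -/
def locVal (e : LocHom V P (funMod σ)) (W : X.Opens) (h : W ≤ V) (s : Γ(P, W)) :
    Γ(T, σ ⁻¹ᵁ W) :=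
  ofUnit T _ (pfTo σ (unitMod T) W (e.app W h s))

theorem locVal_add (e : LocHom V P (funMod σ)) (W : X.Opens) (h : W ≤ V) (s s' : Γ(P, W)) :
    locVal e W h (s + s') = locVal e W h s + locVal e W h s' := by
  unfold locVal
  rw [map_add]
  rfl

theorem locVal_smul (e : LocHom V P (funMod σ)) (W : X.Opens) (h : W ≤ V) (r : Γ(X, W))
    (s : Γ(P, W)) : locVal e W h (r • s) = σ.app W r * locVal e W h s := by
  unfold locVal
  rw [e.app_smul, H326.pfTo_smul]
  rfl

theorem locVal_res (e : LocHom V P (funMod σ)) (W W' : X.Opens) (h : W ≤ V) (hle : W' ≤ W)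
    (s : Γ(P, W)) :
    locVal e W' (hle.trans h) (res P hle s) = resO (σ.preimage_mono hle) (locVal e W h s) := by
  unfold locVal
  rw [e.app_res W W' h hle s, H326.pfTo_res]
  rfl

theorem locVal_restrict (e : LocHom V P (funMod σ)) {V' : X.Opens} (hV : V' ≤ V) (W : X.Opens)
    (h : W ≤ V') (s : Γ(P, W)) : locVal (e.restrict hV) W h s = locVal e W (h.trans hV) s := rfl

theorem locVal_comp {G : X.Opens} (f : LocHom G P Q) (e : LocHom G Q (funMod σ)) (W : X.Opens)
    (h : W ≤ G) (s : Γ(P, W)) : locVal (f.comp e) W h s = locVal e W h (f.app W h s) := rfl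

theorem locVal_ofHom (ev : P ⟶ funMod σ) (W : X.Opens) (h : W ≤ V) (s : Γ(P, W)) :
    locVal (LocHom.ofHom V ev) W h s = H326.evFun ev W s := rfl

/-- A local evaluation is a *unit on generators* if it sends local generators to units. -/
def LocUnitOnGen (e : LocHom V P (funMod σ)) : Prop :=
  ∀ (W : X.Opens) (h : W ≤ V) (s : Γ(P, W)), IsLocalGenerator P W s → IsUnit (locVal e W h s)

theorem locUnitOnGen_restrict {e : LocHom V P (funMod σ)} (he : LocUnitOnGen e) {V' : X.Opens}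
    (hV : V' ≤ V) : LocUnitOnGen (e.restrict hV) := fun W h s hs => he W (h.trans hV) s hs

/-- A sectionwise morphism is *normalized* if it is compatible with the evaluations. -/
def LocNormalized (e : LocHom V P (funMod σ)) (e' : LocHom V Q (funMod σ))
    (f : LocHom V P Q) : Prop :=
  ∀ (W : X.Opens) (hW : W ≤ V) (s : Γ(P, W)), locVal e' W hW (f.app W hW s) = locVal e W hW s

theorem locNormalized_restrict {e : LocHom V P (funMod σ)} {e' : LocHom V Q (funMod σ)}
    {f : LocHom V P Q} (hf : LocNormalized e e' f) {V' : X.Opens} (hV : V' ≤ V) :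
    LocNormalized (e.restrict hV) (e'.restrict hV) (f.restrict hV) :=
  fun W hW s => hf W (hW.trans hV) s

theorem locNormalized_id (e : LocHom V P (funMod σ)) : LocNormalized e e (LocHom.id V P) :=
  fun _ _ _ => rfl

theorem locNormalized_comp {R : X.Modules} {e : LocHom V P (funMod σ)}
    {e' : LocHom V Q (funMod σ)} {e'' : LocHom V R (funMod σ)} {f : LocHom V P Q}
    {g : LocHom V Q R} (hf : LocNormalized e e' f) (hg : LocNormalized e' e'' g) :
    LocNormalized e e'' (f.comp g) := fun W hW s => by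
  rw [LocHom.comp_app, hg, hf]

/-- If `e' (f t) = b * e t` for a local generator `t` on `W₀`, the same holds for all sections
over all opens `W ≤ W₀`. -/
theorem locVal_app_eq_of_generator {e : LocHom V P (funMod σ)} {e' : LocHom V Q (funMod σ)}
    (f : LocHom V P Q) {W₀ : X.Opens} (h₀ : W₀ ≤ V) {t : Γ(P, W₀)}
    (ht : IsLocalGenerator P W₀ t) {b : Γ(T, σ ⁻¹ᵁ W₀)}
    (hb : locVal e' W₀ h₀ (f.app W₀ h₀ t) = b * locVal e W₀ h₀ t)
    (W : X.Opens) (hW : W ≤ W₀) (s : Γ(P, W)) :
    locVal e' W (hW.trans h₀) (f.app W (hW.trans h₀) s) =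
      resO (σ.preimage_mono hW) b * locVal e W (hW.trans h₀) s := by
  obtain ⟨r, hr⟩ := (ht W hW).2 s
  simp only at hr
  rw [← hr, f.app_smul, locVal_smul, locVal_smul, f.app_res W₀ W h₀ hW t,
    locVal_res e' W₀ W h₀ hW, locVal_res e W₀ W h₀ hW, hb, resO_mul]
  ring

/-- **R1, local form.** The ratio of a bijective sectionwise morphism with respect to two
local evaluations. -/
theorem loc_exists_ratio (hP : HasLocalGeneratorsOn P V) {e : LocHom V P (funMod σ)}
    {e' : LocHom V Q (funMod σ)} (he : LocUnitOnGen e) (he' : LocUnitOnGen e')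
    (f : LocHom V P Q) (hf : LocBij f) :
    ∃ b : Γ(T, σ ⁻¹ᵁ V), IsUnit b ∧ ∀ (W : X.Opens) (hW : W ≤ V) (s : Γ(P, W)),
      locVal e' W hW (f.app W hW s) = resO (σ.preimage_mono hW) b * locVal e W hW s := by
  choose U hxU s₀ hs₀ using hP
  let I : Type u := {x : T // σ x ∈ V}
  let Wc : I → X.Opens := fun x => U (σ x.1) x.2 ⊓ V
  have hWV : ∀ x, Wc x ≤ V := fun x => inf_le_right
  let t : ∀ x, Γ(P, Wc x) := fun x => res P inf_le_left (s₀ (σ x.1) x.2)
  have ht : ∀ x, IsLocalGenerator P (Wc x) (t x) := fun x =>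
    isLocalGenerator_res (hs₀ (σ x.1) x.2) inf_le_left
  have hue : ∀ x, IsUnit (locVal e (Wc x) (hWV x) (t x)) := fun x => he _ _ _ (ht x)
  have hue' : ∀ x, IsUnit (locVal e' (Wc x) (hWV x) (f.app _ (hWV x) (t x))) := fun x =>
    he' _ _ _ (isLocalGenerator_locApp hf (hWV x) (ht x))
  have hex : ∀ x, ∃ b : Γ(T, σ ⁻¹ᵁ Wc x), IsUnit b ∧
      locVal e' (Wc x) (hWV x) (f.app _ (hWV x) (t x)) = b * locVal e (Wc x) (hWV x) (t x) := by
    intro x
    refine ⟨locVal e' (Wc x) (hWV x) (f.app _ (hWV x) (t x)) *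
      ((hue x).unit⁻¹ : (Γ(T, σ ⁻¹ᵁ Wc x))ˣ), (hue' x).mul (Units.isUnit _), ?_⟩
    rw [mul_assoc, IsUnit.val_inv_mul, mul_one]
  choose b hbu hb using hex
  have hPP : ∀ (x : I) (W : X.Opens) (hW : W ≤ Wc x) (s : Γ(P, W)),
      locVal e' W (hW.trans (hWV x)) (f.app W (hW.trans (hWV x)) s) =
        resO (σ.preimage_mono hW) (b x) * locVal e W (hW.trans (hWV x)) s :=
    fun x W hW s => locVal_app_eq_of_generator f (hWV x) (ht x) (hb x) W hW s
  have hcover : σ ⁻¹ᵁ V ≤ ⨆ x, σ ⁻¹ᵁ Wc x := by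
    intro x hx
    exact Opens.mem_iSup.mpr ⟨⟨x, hx⟩, hxU (σ x) hx, hx⟩
  have hcompat : ∀ x y,
      resO (inf_le_left : σ ⁻¹ᵁ Wc x ⊓ σ ⁻¹ᵁ Wc y ≤ σ ⁻¹ᵁ Wc x) (b x) =
        resO (inf_le_right : σ ⁻¹ᵁ Wc x ⊓ σ ⁻¹ᵁ Wc y ≤ σ ⁻¹ᵁ Wc y) (b y) := by
    intro x y
    have hu : IsUnit (locVal e (Wc x ⊓ Wc y) (inf_le_left.trans (hWV x))
        (res P inf_le_left (t x))) :=
      he _ _ _ (isLocalGenerator_res (ht x) inf_le_left)
    have e1 := hPP x (Wc x ⊓ Wc y) inf_le_left (res P inf_le_left (t x))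
    have e2 := hPP y (Wc x ⊓ Wc y) inf_le_right (res P inf_le_left (t x))
    rw [e1] at e2
    exact hu.mul_left_injective e2
  obtain ⟨b₀, hb₀⟩ := exists_gluing_O (fun x => σ ⁻¹ᵁ Wc x) (σ ⁻¹ᵁ V)
    (fun x => σ.preimage_mono (hWV x)) hcover b hcompat
  refine ⟨b₀, ?_, fun W hW s => ?_⟩
  · apply isUnit_of_locally_isUnit
    intro x hx
    refine ⟨σ ⁻¹ᵁ Wc ⟨x, hx⟩, σ.preimage_mono (hWV _), ⟨hxU (σ x) hx, hx⟩, ?_⟩
    rw [hb₀]
    exact hbu _
  · have hcoverW : σ ⁻¹ᵁ W ≤ ⨆ x : I, σ ⁻¹ᵁ (W ⊓ Wc x) := by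
      intro x hx
      exact Opens.mem_iSup.mpr ⟨⟨x, hW hx⟩, hx, hxU (σ x) (hW hx), hW hx⟩
    apply eq_of_locally_eq_O (fun x : I => σ ⁻¹ᵁ (W ⊓ Wc x)) (σ ⁻¹ᵁ W)
      (fun x => σ.preimage_mono inf_le_left) hcoverW
    intro x
    have hA : resO (σ.preimage_mono (inf_le_left : W ⊓ Wc x ≤ W))
        (locVal e' W hW (f.app W hW s)) =
        locVal e' (W ⊓ Wc x) (inf_le_left.trans hW)
          (f.app (W ⊓ Wc x) (inf_le_left.trans hW) (res P inf_le_left s)) := by
      rw [f.app_res W (W ⊓ Wc x) hW inf_le_left, locVal_res e' W (W ⊓ Wc x) hW inf_le_left]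
    have hB := hPP x (W ⊓ Wc x) inf_le_right (res P inf_le_left s)
    have hC : resO (σ.preimage_mono (inf_le_left : W ⊓ Wc x ≤ W))
        (resO (σ.preimage_mono hW) b₀ * locVal e W hW s) =
        resO (σ.preimage_mono (inf_le_right : W ⊓ Wc x ≤ Wc x)) (b x) *
          locVal e (W ⊓ Wc x) (inf_le_left.trans hW) (res P inf_le_left s) := by
      rw [resO_mul, resO_resO, ← hb₀ x, resO_resO, locVal_res e W (W ⊓ Wc x) hW inf_le_left]
    rw [hA, hB, hC]

/-- **R2 (rigidity), local form.**  Two normalized bijective sectionwise morphisms over `V`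
agree, provided functions on `V` are determined by their restrictions along `σ`. -/
theorem loc_eq_of_normalized (hP : HasLocalGeneratorsOn P V) {e : LocHom V P (funMod σ)}
    {e' : LocHom V Q (funMod σ)} (he : LocUnitOnGen e) (U : T.Opens) (hUV : U ≤ σ ⁻¹ᵁ V)
    (hinj : ∀ a : Γ(X, V), σ.appLE V U hUV a = 1 → a = 1)
    {f f' : LocHom V P Q} (hf' : LocBij f') (hn : LocNormalized e e' f)
    (hn' : LocNormalized e e' f') : f = f' := by
  obtain ⟨a, ha⟩ := loc_exists_smul_eq hP f f' hf'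
  have ha1 : a = 1 := by
    apply hinj
    choose U₀ hxU s₀ hs₀ using hP
    let I : Type u := {x : T // x ∈ U}
    have hcover : U ≤ ⨆ x : I, U ⊓ σ ⁻¹ᵁ (U₀ (σ x.1) (hUV x.2) ⊓ V) := by
      intro x hx
      exact Opens.mem_iSup.mpr ⟨⟨x, hx⟩, hx, hxU (σ x) (hUV hx), hUV hx⟩
    apply eq_of_locally_eq_O (fun x : I => U ⊓ σ ⁻¹ᵁ (U₀ (σ x.1) (hUV x.2) ⊓ V)) U
      (fun x => inf_le_left) hcover
    intro x
    have ht : IsLocalGenerator P (U₀ (σ x.1) (hUV x.2) ⊓ V)
        (res P inf_le_left (s₀ (σ x.1) (hUV x.2))) :=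
      isLocalGenerator_res (hs₀ (σ x.1) (hUV x.2)) inf_le_left
    have hu := he _ inf_le_right _ ht
    have h1 := hn (U₀ (σ x.1) (hUV x.2) ⊓ V) inf_le_right
      (res P inf_le_left (s₀ (σ x.1) (hUV x.2)))
    rw [ha, locVal_smul, hn'] at h1
    have h2 : σ.app (U₀ (σ x.1) (hUV x.2) ⊓ V) (resO inf_le_right a) = 1 := by
      apply hu.mul_left_injective
      simp only
      rw [h1, one_mul]
    rw [app_resO_eq_appLE] at h2
    have h3 := resO_appLE σ (σ.preimage_mono (inf_le_right : U₀ (σ x.1) (hUV x.2) ⊓ V ≤ V))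
      (inf_le_right : U ⊓ σ ⁻¹ᵁ (U₀ (σ x.1) (hUV x.2) ⊓ V) ≤
        σ ⁻¹ᵁ (U₀ (σ x.1) (hUV x.2) ⊓ V)) a
    rw [resO_appLE σ hUV, resO_one, ← h3, h2, resO_one]
  apply LocHom.ext
  intro W hW s
  rw [ha, ha1, resO_one, one_smul]

/-- **Normalization, local form.**  If restriction along `σ` is a bijection from functions on
`V` to functions on `U = σ⁻¹ V`, every bijective sectionwise morphism can be normalized. -/
theorem loc_exists_normalized (hP : HasLocalGeneratorsOn P V) {e : LocHom V P (funMod σ)}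
    {e' : LocHom V Q (funMod σ)} (he : LocUnitOnGen e) (he' : LocUnitOnGen e') (U : T.Opens)
    (hUV : U ≤ σ ⁻¹ᵁ V) (hVU : σ ⁻¹ᵁ V ≤ U)
    (hbij : Function.Bijective (σ.appLE V U hUV).hom)
    (f : LocHom V P Q) (hf : LocBij f) :
    ∃ f₁ : LocHom V P Q, LocBij f₁ ∧ LocNormalized e e' f₁ := by
  obtain ⟨b₀, hb₀u, hb₀⟩ := loc_exists_ratio hP he he' f hf
  have hb₁u : IsUnit (resO hUV b₀) := hb₀u.map (T.presheaf.map (homOfLE hUV).op).hom
  obtain ⟨b₁, hb₁⟩ := hb₁u
  obtain ⟨a, ha⟩ := hbij.2 ((b₁⁻¹ : (Γ(T, U))ˣ) : Γ(T, U))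
  obtain ⟨a', ha'⟩ := hbij.2 (b₁ : Γ(T, U))
  have haa' : a * a' = 1 := by
    apply hbij.1
    rw [map_mul, ha, ha', map_one, Units.inv_mul]
  have hau : IsUnit a := IsUnit.of_mul_eq_one a' haa'
  refine ⟨locSmul a f, locBij_smul hf hau, fun W hW s => ?_⟩
  rw [locSmul_app, locVal_smul, hb₀, ← mul_assoc]
  have h1 : σ.app W (resO hW a) = resO ((σ.preimage_mono hW).trans hVU)
      ((b₁⁻¹ : (Γ(T, U))ˣ) : Γ(T, U)) := by
    rw [app_resO_eq_appLE, ← ha]
    exact (resO_appLE σ hUV ((σ.preimage_mono hW).trans hVU) a).symm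
  have h2 : resO (σ.preimage_mono hW) b₀ = resO ((σ.preimage_mono hW).trans hVU) (b₁ : Γ(T, U)) := by
    rw [hb₁, resO_resO]
  rw [h1, h2, ← resO_mul, Units.inv_mul, resO_one, one_mul]

end LocEval

end Fermat.Agent.S25.H146
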