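/-
S25 helper (helper146), assembly AS6, part 6: GLUING RIGIDIFIED MODULES, abstract sectionwise
form.

`σ : T ⟶ X`, opens `V i` covering `X`, modules `P i` which over `V i` have local generators and
an evaluation `e i : P i|_{V i} ⟶ σ_* 𝒪_T` sending local generators to units.  If the `P i` are
sectionwise isomorphic on the overlaps `V i ⊓ V j` (NO cocycle condition) and restriction of
functions along `σ` is bijective on the double and triple overlaps, then the `P i` glue to a
module `M` on `X` with a rigidifying evaluation `ev : M ⟶ σ_* 𝒪_T`.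
-/
import Mathlib
import Fermat.Agent.S25.H146.LocRigid
import Fermat.Agent.S25.H146.GlueSec

set_option autoImplicit false

universe u

noncomputable section

open CategoryTheory AlgebraicGeometry TopologicalSpace Opposite

namespace Fermat.Agent.S25.H146

open Fermat.Agent.S25.H626
open Fermat.Agent.S25.H326 (LocHom funMod pfTo)

variable {X T : Scheme.{u}}

/-- A sectionwise morphism in the sense of `H326.LocHom`, as a `SecHom`. -/
def secHomOfLocHom {G : X.Opens} {P Q : X.Modules} (f : LocHom G P Q) : SecHom P Q G where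
  app W h := f.app W h
  app_add _ _ s s' := map_add _ s s'
  app_smul W h r s := f.app_smul W h r s
  app_res W W' h hle s := f.app_res W W' h hle s

/-- Restriction of functions along `σ` is bijective over the open `G`. -/
def RestrictionBijective (σ : T ⟶ X) (G : X.Opens) : Prop :=
  ∃ (U : T.Opens) (hUG : U ≤ σ ⁻¹ᵁ G), σ ⁻¹ᵁ G ≤ U ∧ Function.Bijective (σ.appLE G U hUG).hom

/-- **Gluing rigidified modules (abstract sectionwise form).** -/
theorem exists_glue_rigid (σ : T ⟶ X) {ι : Type u} (V : ι → X.Opens) (hV : ⨆ i, V i = ⊤)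
    (h2 : ∀ i j, RestrictionBijective σ (V i ⊓ V j))
    (h3 : ∀ i j k, RestrictionBijective σ (V i ⊓ V j ⊓ V k))
    (P : ι → X.Modules) (hP : ∀ i, HasLocalGeneratorsOn (P i) (V i))
    (e : ∀ i, LocHom (V i) (P i) (funMod σ)) (he : ∀ i, LocUnitOnGen (e i))
    (θ : ∀ i j, ∃ f : LocHom (V i ⊓ V j) (P i) (P j), LocBij f) :
    ∃ (M : X.Modules) (ev : M ⟶ funMod σ) (f : ∀ i, LocHom (V i) M (P i)),
      (∀ i, LocBij (f i)) ∧
      (∀ (i : ι) (W : X.Opens) (hW : W ≤ V i) (s : Γ(M, W)),
        locVal (e i) W hW ((f i).app W hW s) = H326.evFun ev W s) ∧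
      H326.IsRigidifying ev := by
  -- normalized transition maps
  have hτ : ∀ i j, ∃ τ : LocHom (V i ⊓ V j) (P i) (P j), LocBij τ ∧
      LocNormalized ((e i).restrict inf_le_left) ((e j).restrict inf_le_right) τ := by
    intro i j
    obtain ⟨f, hf⟩ := θ i j
    obtain ⟨U, hUG, hGU, hbij⟩ := h2 i j
    exact loc_exists_normalized (hasLocalGeneratorsOn_mono (hP i) inf_le_left)
      (locUnitOnGen_restrict (he i) inf_le_left) (locUnitOnGen_restrict (he j) inf_le_right)
      U hUG hGU hbij f hf
  choose τ hτb hτn using hτ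
  -- the identity on self-overlaps
  have hself : ∀ (i : ι) (W : X.Opens) (hW : W ≤ V i ⊓ V i) (s : Γ(P i, W)),
      (τ i i).app W hW s = s := by
    intro i W hW s
    obtain ⟨U, hUG, hGU, hbij⟩ := h2 i i
    have key : τ i i = LocHom.id (V i ⊓ V i) (P i) :=
      loc_eq_of_normalized (hasLocalGeneratorsOn_mono (hP i) inf_le_left)
        (locUnitOnGen_restrict (he i) inf_le_left) U hUG
        (fun a ha => hbij.1 (ha.trans (map_one _).symm))
        (locBij_id _ _) (hτn i i) (fun _ _ _ => rfl)
    rw [key]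
    rfl
  -- the cocycle condition
  have hcocycle : ∀ (i j k : ι) (W : X.Opens) (hij : W ≤ V i ⊓ V j) (hjk : W ≤ V j ⊓ V k)
      (hik : W ≤ V i ⊓ V k) (s : Γ(P i, W)),
      (τ j k).app W hjk ((τ i j).app W hij s) = (τ i k).app W hik s := by
    intro i j k W hij hjk hik s
    obtain ⟨U, hUG, hGU, hbij⟩ := h3 i j k
    have l1 : V i ⊓ V j ⊓ V k ≤ V i ⊓ V j := inf_le_left
    have l2 : V i ⊓ V j ⊓ V k ≤ V j ⊓ V k := le_inf (inf_le_left.trans inf_le_right) inf_le_right
    have l3 : V i ⊓ V j ⊓ V k ≤ V i ⊓ V k := le_inf (inf_le_left.trans inf_le_left) inf_le_right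
    have li : V i ⊓ V j ⊓ V k ≤ V i := inf_le_left.trans inf_le_left
    have lk : V i ⊓ V j ⊓ V k ≤ V k := inf_le_right
    have key : ((τ i j).restrict l1).comp ((τ j k).restrict l2) = (τ i k).restrict l3 :=
      loc_eq_of_normalized (e := (e i).restrict li) (e' := (e k).restrict lk)
        (hasLocalGeneratorsOn_mono (hP i) li)
        (locUnitOnGen_restrict (he i) li) U hUG
        (fun a ha => hbij.1 (ha.trans (map_one _).symm))
        (locBij_restrict (hτb i k) l3)
        (fun W' hW' s' => by
          have e1 := hτn j k W' (hW'.trans l2) ((τ i j).app W' (hW'.trans l1) s')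
          have e2 := hτn i j W' (hW'.trans l1) s'
          exact e1.trans e2)
        (fun W' hW' s' => hτn i k W' (hW'.trans l3) s')
    have hW : W ≤ V i ⊓ V j ⊓ V k := le_inf hij (hjk.trans inf_le_right)
    exact congrArg (fun g : LocHom (V i ⊓ V j ⊓ V k) (P i) (P k) => g.app W hW s) key
  -- glue
  let D : H326.GlueData X ι :=
    { G := V, P := P, τ := τ, τ_self := hself, τ_cocycle := hcocycle }
  obtain ⟨M, f, hfb, hfc⟩ := H326.exists_glue D
  -- glue the evaluations
  have hcompat : ∀ (i j : ι) (W : X.Opens) (hi : W ≤ V i) (hj : W ≤ V j) (s : Γ(M, W)),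
      (secHomOfLocHom ((f i).comp (e i))).app W hi s =
        (secHomOfLocHom ((f j).comp (e j))).app W hj s := by
    intro i j W hi hj s
    have e1 := hτn i j W (le_inf hi hj) ((f i).app W hi s)
    have e2 := hfc i j W (le_inf hi hj) s
    have e3 : locVal (e j) W hj ((f j).app W hj s) = locVal (e i) W hi ((f i).app W hi s) := by
      rw [← e2]
      exact e1
    exact e3.symm
  obtain ⟨ev, hev⟩ := exists_hom_of_secHoms V hV (fun i => secHomOfLocHom ((f i).comp (e i)))
    hcompat
  have hev' : ∀ (i : ι) (W : X.Opens) (hW : W ≤ V i) (s : Γ(M, W)),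
      locVal (e i) W hW ((f i).app W hW s) = H326.evFun ev W s := by
    intro i W hW s
    exact (hev i W hW s).symm
  refine ⟨M, ev, f, hfb, hev', ?_⟩
  -- the glued evaluation is rigidifying
  intro t
  have ht : σ t ∈ ⨆ i, V i := by rw [hV]; trivial
  obtain ⟨i, hi⟩ := Opens.mem_iSup.mp ht
  obtain ⟨W, hxW, s, hs⟩ := hasLocalGeneratorsOn_of_locBij (hfb i) (hP i) (σ t) hi
  have hs' : IsLocalGenerator M (W ⊓ V i) (res M inf_le_left s) := isLocalGenerator_res hs _
  refine ⟨W ⊓ V i, res M inf_le_left s, ⟨hxW, hi⟩, hs', ?_⟩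
  rw [← hev' i (W ⊓ V i) inf_le_right]
  exact he i _ _ _ (isLocalGenerator_locApp (hfb i) inf_le_right hs')

end Fermat.Agent.S25.H146
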