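/-
S25 helper (helper146), assembly AS6, part 7: DICTIONARY for open immersions.

For an open immersion `g : Y ⟶ X` and a module `L` on `Y` we compare `L` with its pushforward
`g_* L` on `X`, sectionwise over the opens contained in the range of `g`:
* `hasLocalGeneratorsOn_pushforward`: local generators of `L` give local generators of `g_* L`;
* `pullbackPushforwardIso`: `g^* g_* L ≅ L`;
* `nonempty_iso_of_locBij`: a bijective sectionwise morphism `N|_{range g} ⟶ g_* L` gives
  `g^* N ≅ L`;
* `exists_locBij_of_pullback_iso`: an isomorphism between pullbacks of `L₁`, `L₂` to a common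
  open gives a bijective sectionwise morphism between the pushforwards;
* `exists_locEval_of_rigidification`: a rigidification of `L` along `σ' : U ⟶ Y` over an open
  `U ⊆ T` gives a local evaluation `g_* L ⟶ σ_* 𝒪_T` which is a unit on generators.
-/
import Mathlib
import Fermat.Agent.S25.H146.LocRigid
import Fermat.Agent.S25.H146.GlueSec

set_option autoImplicit false

universe u

noncomputable section

open CategoryTheory AlgebraicGeometry TopologicalSpace Opposite

namespace Fermat.Agent.S25.H146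

open Fermat.Agent.S25.H626
open Fermat.Agent.S25.H326 (LocHom funMod pfTo pfOf)
open AlgebraicGeometry.Scheme.Modules (pullback pushforward)

variable {X Y : Scheme.{u}}

/-! ## `SecHom` versus `LocHom` -/

/-- A `SecHom` as a sectionwise morphism in the sense of `H326.LocHom`. -/
def locHomOfSecHom {G : X.Opens} {P Q : X.Modules} (f : SecHom P Q G) : LocHom G P Q where
  app W h := AddMonoidHom.mk' (f.app W h) (f.app_add W h)
  app_smul W h r s := f.app_smul W h r s
  app_res W W' h hle s := f.app_res W W' h hle s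

theorem locBij_locHomOfSecHom {G : X.Opens} {P Q : X.Modules} {f : SecHom P Q G}
    (hf : f.IsIso) : LocBij (locHomOfSecHom f) := fun W h => hf W h

/-! ## Local generators of a pushforward along an open immersion -/

section PushGen

variable (g : Y ⟶ X) [IsOpenImmersion g] (L : Y.Modules)

theorem bijective_app_of_le_opensRange (W : X.Opens) (hW : W ≤ g.opensRange) :
    Function.Bijective (g.app W) := by
  have := g.isIso_app W hW
  exact (ConcreteCategory.isIso_iff_bijective (g.app W)).mp inferInstance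

/-- A local generator of `L` over `W'` is a local generator of `g_* L` over `g(W')`. -/
theorem isLocalGenerator_pushforward {W' : Y.Opens} {s' : Γ(L, W')}
    (hs' : IsLocalGenerator L W' s') :
    IsLocalGenerator ((pushforward g).obj L) (g ''ᵁ W')
      (pfOf g L (g ''ᵁ W') (res L (g.preimage_image_eq W').le s')) := by
  intro W'' hle
  have hW'' : W'' ≤ g.opensRange := hle.trans (g.image_le_opensRange W')
  have hle' : g ⁻¹ᵁ W'' ≤ W' := (g.preimage_mono hle).trans (g.preimage_image_eq W').le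
  have h1 : (fun r : Γ(X, W'') => r • res ((pushforward g).obj L) hle
      (pfOf g L (g ''ᵁ W') (res L (g.preimage_image_eq W').le s'))) =
      (fun x : Γ(L, g ⁻¹ᵁ W'') => pfOf g L W'' x) ∘
        (fun r' : Γ(Y, g ⁻¹ᵁ W'') => r' • res L hle' s') ∘ (fun r : Γ(X, W'') => g.app W'' r) := by
    funext r
    simp only [Function.comp_apply]
    apply H326.pfTo_injective
    rw [H326.pfTo_smul, H326.pfTo_res, H326.pfTo_pfOf, H326.pfTo_pfOf, res_res]
  rw [h1]
  refine Function.Bijective.comp ⟨fun _ _ h => h, fun x => ⟨x, rfl⟩⟩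
    (Function.Bijective.comp (hs' _ hle') (bijective_app_of_le_opensRange g W'' hW''))

theorem hasLocalGeneratorsOn_pushforward (hL : HasLocalGenerators L) :
    HasLocalGeneratorsOn ((pushforward g).obj L) g.opensRange := by
  intro x hx
  obtain ⟨y, rfl⟩ := hx
  obtain ⟨W', hyW', s', hs'⟩ := hL y
  exact ⟨g ''ᵁ W', ⟨y, hyW', rfl⟩, _, isLocalGenerator_pushforward g L hs'⟩

end PushGen

/-! ## Pullback of a pushforward along an open immersion -/

section PullPush

variable (g : Y ⟶ X) [IsOpenImmersion g]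

/-- `g^* g_* L ≅ L` for an open immersion `g`. -/
def pullbackPushforwardIso (L : Y.Modules) : (pullback g).obj ((pushforward g).obj L) ≅ L :=
  (Scheme.Modules.restrictFunctorIsoPullback g).symm.app ((pushforward g).obj L) ≪≫
    (Scheme.Modules.restrictFunctorAdjCounitIso g).app L

end PullPush

/-! ## From sectionwise isomorphisms to isomorphisms of pullbacks -/

section IsoOfLocBij

variable (g : Y ⟶ X) [IsOpenImmersion g] (N : X.Modules) (L : Y.Modules)

/-- Sections of `N.restrict g` over `W'` are sections of `N` over `g(W')` (the identity). -/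
def restrTo (W' : Y.Opens) (s : Γ(N.restrict g, W')) : Γ(N, g ''ᵁ W') := s

theorem restrTo_res {W' W'' : Y.Opens} (h : W'' ≤ W') (s : Γ(N.restrict g, W')) :
    restrTo g N W'' (res (N.restrict g) h s) = res N (g.image_mono h) (restrTo g N W' s) := rfl

theorem restrTo_smul (W' : Y.Opens) (r : Γ(Y, W')) (s : Γ(N.restrict g, W')) :
    restrTo g N W' (r • s) = ((g.appIso W').inv r) • restrTo g N W' s := rfl

theorem restrTo_add (W' : Y.Opens) (s s' : Γ(N.restrict g, W')) :
    restrTo g N W' (s + s') = restrTo g N W' s + restrTo g N W' s' := rfl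

theorem restrTo_bijective (W' : Y.Opens) : Function.Bijective (restrTo g N W') :=
  ⟨fun _ _ h => h, fun s => ⟨s, rfl⟩⟩

theorem resO_app_appIso_inv (W' : Y.Opens) (r : Γ(Y, W')) :
    resO (g.preimage_image_eq W').ge (g.app (g ''ᵁ W') ((g.appIso W').inv r)) = r := by
  have h1 := g.appIso_inv_app W'
  have h2 : g.app (g ''ᵁ W') ((g.appIso W').inv r) =
      Y.presheaf.map (eqToHom (g.preimage_image_eq W')).op r := congr($h1 r)
  rw [h2]
  unfold resO
  rw [← ConcreteCategory.comp_apply, ← Functor.map_comp]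
  have h3 : (eqToHom (g.preimage_image_eq W')).op ≫ (homOfLE (g.preimage_image_eq W').ge).op =
      𝟙 (op W') := Subsingleton.elim _ _
  rw [h3, Y.presheaf.map_id]
  rfl

variable {N L}

/-- The component over `W'` of the morphism `N.restrict g ⟶ L` attached to a sectionwise
morphism `N ⟶ g_* L` over the range of `g`. -/
def restrictHomApp (f : LocHom g.opensRange N ((pushforward g).obj L)) (W' : Y.Opens)
    (s : Γ(N.restrict g, W')) : Γ(L, W') :=
  res L (g.preimage_image_eq W').ge
    (pfTo g L (g ''ᵁ W') (f.app (g ''ᵁ W') (g.image_le_opensRange W') (restrTo g N W' s)))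

theorem restrictHomApp_add (f : LocHom g.opensRange N ((pushforward g).obj L)) (W' : Y.Opens)
    (s s' : Γ(N.restrict g, W')) :
    restrictHomApp g f W' (s + s') = restrictHomApp g f W' s + restrictHomApp g f W' s' := by
  unfold restrictHomApp
  rw [restrTo_add, map_add, H326.pfTo_add, res_add]

theorem restrictHomApp_res (f : LocHom g.opensRange N ((pushforward g).obj L))
    (W' W'' : Y.Opens) (h : W'' ≤ W') (s : Γ(N.restrict g, W')) :
    restrictHomApp g f W'' (res (N.restrict g) h s) = res L h (restrictHomApp g f W' s) := by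
  unfold restrictHomApp
  rw [restrTo_res, f.app_res (g ''ᵁ W') (g ''ᵁ W'') (g.image_le_opensRange W') (g.image_mono h),
    H326.pfTo_res, res_res, res_res]

theorem restrictHomApp_smul (f : LocHom g.opensRange N ((pushforward g).obj L)) (W' : Y.Opens)
    (r : Γ(Y, W')) (s : Γ(N.restrict g, W')) :
    restrictHomApp g f W' (r • s) = r • restrictHomApp g f W' s := by
  unfold restrictHomApp
  rw [restrTo_smul, f.app_smul, H326.pfTo_smul, res_smul, resO_app_appIso_inv]

theorem restrictHomApp_bijective (f : LocHom g.opensRange N ((pushforward g).obj L))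
    (hf : LocBij f) (W' : Y.Opens) : Function.Bijective (restrictHomApp g f W') := by
  have h1 : restrictHomApp g f W' =
      (res L (g.preimage_image_eq W').ge) ∘ (fun x => pfTo g L (g ''ᵁ W') x) ∘
        (f.app (g ''ᵁ W') (g.image_le_opensRange W')) ∘ (restrTo g N W') := rfl
  rw [h1]
  exact (H326.res_bijective_of_le L _ (g.preimage_image_eq W').le).comp
    (Function.Bijective.comp ⟨fun _ _ h => h, fun x => ⟨x, rfl⟩⟩
      ((hf _ _).comp (restrTo_bijective g N W')))

/-- The morphism `N.restrict g ⟶ L` attached to a sectionwise morphism `N ⟶ g_* L` over the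
range of `g`. -/
def restrictHomOfLocHom (f : LocHom g.opensRange N ((pushforward g).obj L)) :
    N.restrict g ⟶ L :=
  H326.mkHom (fun W' => AddMonoidHom.mk' (restrictHomApp g f W') (restrictHomApp_add g f W'))
    (fun W' W'' h s => restrictHomApp_res g f W' W'' h s)
    (fun W' r s => restrictHomApp_smul g f W' r s)

theorem isIso_restrictHomOfLocHom (f : LocHom g.opensRange N ((pushforward g).obj L))
    (hf : LocBij f) : IsIso (restrictHomOfLocHom g f) := by
  rw [Scheme.Modules.Hom.isIso_iff_isIso_app]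
  intro W'
  exact (ConcreteCategory.isIso_iff_bijective (C := Ab) ((restrictHomOfLocHom g f).app W')).mpr
    (restrictHomApp_bijective g f hf W')

/-- A bijective sectionwise morphism `N ⟶ g_* L` over the range of the open immersion `g`
gives an isomorphism `g^* N ≅ L`. -/
theorem nonempty_iso_of_locBij (f : LocHom g.opensRange N ((pushforward g).obj L))
    (hf : LocBij f) : Nonempty ((pullback g).obj N ≅ L) :=
  ⟨(Scheme.Modules.restrictFunctorIsoPullback g).symm.app N ≪≫
    @asIso _ _ _ _ (restrictHomOfLocHom g f) (isIso_restrictHomOfLocHom g f hf)⟩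

end IsoOfLocBij

/-! ## From isomorphisms of pullbacks to sectionwise isomorphisms -/

section LocBijOfIso

variable {Y₁ Y₂ Z : Scheme.{u}} (g₁ : Y₁ ⟶ X) (g₂ : Y₂ ⟶ X) [IsOpenImmersion g₁]
  [IsOpenImmersion g₂] (g : Z ⟶ X) [IsOpenImmersion g] (b₁ : Z ⟶ Y₁) (b₂ : Z ⟶ Y₂)

/-- An isomorphism between the pullbacks of `L₁` (on `Y₁`) and `L₂` (on `Y₂`) to a common open
`Z` of `Y₁`, `Y₂` gives a bijective sectionwise morphism between the pushforwards to `X`, over
every open contained in the image of `Z`. -/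
theorem exists_locBij_of_pullback_iso (h₁ : b₁ ≫ g₁ = g) (h₂ : b₂ ≫ g₂ = g)
    (L₁ : Y₁.Modules) (L₂ : Y₂.Modules) (φ : (pullback b₁).obj L₁ ≅ (pullback b₂).obj L₂)
    (G : X.Opens) (hG : G ≤ g.opensRange) :
    ∃ f : LocHom G ((pushforward g₁).obj L₁) ((pushforward g₂).obj L₂), LocBij f := by
  let Θ : (pullback g).obj ((pushforward g₁).obj L₁) ≅ (pullback g).obj ((pushforward g₂).obj L₂) :=
    (Scheme.Modules.pullbackCongr h₁.symm).app _ ≪≫
      (Scheme.Modules.pullbackComp b₁ g₁).symm.app _ ≪≫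
      (pullback b₁).mapIso (pullbackPushforwardIso g₁ L₁) ≪≫ φ ≪≫
      (pullback b₂).mapIso (pullbackPushforwardIso g₂ L₂).symm ≪≫
      (Scheme.Modules.pullbackComp b₂ g₂).app _ ≪≫
      (Scheme.Modules.pullbackCongr h₂).app _
  exact ⟨locHomOfSecHom (secHomOfPullbackHom g Θ.hom G hG),
    locBij_locHomOfSecHom (isIso_secHomOfPullbackIso g Θ G hG)⟩

end LocBijOfIso

/-! ## Local evaluations from rigidifications over an open of the base -/

section EvalOpen

variable {T : Scheme.{u}} (U : T.Opens) (σ : T ⟶ X) {P : X.Modules}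

/-- Functions on `(U.ι ≫ σ)⁻¹ W ⊆ U` are functions on the open `U ∩ σ⁻¹ W` of `T`
(the identity). -/
def toCutFun (W : X.Opens) (a : Γ(U.toScheme, (U.ι ≫ σ) ⁻¹ᵁ W)) :
    Γ(T, H326.cut U (σ ⁻¹ᵁ W)) := a

theorem toCutFun_mul (W : X.Opens) (a b : Γ(U.toScheme, (U.ι ≫ σ) ⁻¹ᵁ W)) :
    toCutFun U σ W (a * b) = toCutFun U σ W a * toCutFun U σ W b := rfl

theorem toCutFun_add (W : X.Opens) (a b : Γ(U.toScheme, (U.ι ≫ σ) ⁻¹ᵁ W)) :
    toCutFun U σ W (a + b) = toCutFun U σ W a + toCutFun U σ W b := rfl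

theorem toCutFun_app (W : X.Opens) (r : Γ(X, W)) :
    toCutFun U σ W ((U.ι ≫ σ).app W r) = resO (H326.cut_le_right U (σ ⁻¹ᵁ W)) (σ.app W r) := rfl

theorem toCutFun_resO {W W' : X.Opens} (h : W' ≤ W) (a : Γ(U.toScheme, (U.ι ≫ σ) ⁻¹ᵁ W)) :
    toCutFun U σ W' (resO ((U.ι ≫ σ).preimage_mono h) a) =
      resO (H326.cut_mono le_rfl (σ.preimage_mono h)) (toCutFun U σ W a) := rfl

theorem isUnit_toCutFun (W : X.Opens) {a : Γ(U.toScheme, (U.ι ≫ σ) ⁻¹ᵁ W)} (ha : IsUnit a) :
    IsUnit (toCutFun U σ W a) := ha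

theorem evFun_add' {T' : Scheme.{u}} {f : T' ⟶ X} (ev : P ⟶ funMod f) (W : X.Opens)
    (s s' : Γ(P, W)) : H326.evFun ev W (s + s') = H326.evFun ev W s + H326.evFun ev W s' := by
  unfold H326.evFun
  rw [map_add]
  rfl

/-- The value on a section over `W` (with `σ⁻¹ W ⊆ U`) of an evaluation with values in
functions on `U`, as a function on `σ⁻¹ W`. -/
def openVal (ev' : P ⟶ funMod (U.ι ≫ σ)) (W : X.Opens) (hW : σ ⁻¹ᵁ W ≤ U) (s : Γ(P, W)) :
    Γ(T, σ ⁻¹ᵁ W) :=
  resO (H326.le_cut hW le_rfl) (toCutFun U σ W (H326.evFun ev' W s))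

theorem openVal_add (ev' : P ⟶ funMod (U.ι ≫ σ)) (W : X.Opens) (hW : σ ⁻¹ᵁ W ≤ U)
    (s s' : Γ(P, W)) :
    openVal U σ ev' W hW (s + s') = openVal U σ ev' W hW s + openVal U σ ev' W hW s' := by
  unfold openVal
  rw [evFun_add', toCutFun_add]
  exact map_add _ _ _

theorem openVal_smul (ev' : P ⟶ funMod (U.ι ≫ σ)) (W : X.Opens) (hW : σ ⁻¹ᵁ W ≤ U)
    (r : Γ(X, W)) (s : Γ(P, W)) :
    openVal U σ ev' W hW (r • s) = σ.app W r * openVal U σ ev' W hW s := by
  unfold openVal
  rw [H326.evFun_smul, toCutFun_mul, toCutFun_app, resO_mul, resO_resO]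
  congr 1
  exact H626.resO_id _

theorem openVal_res (ev' : P ⟶ funMod (U.ι ≫ σ)) (W W' : X.Opens) (hW : σ ⁻¹ᵁ W ≤ U)
    (h : W' ≤ W) (s : Γ(P, W)) :
    openVal U σ ev' W' ((σ.preimage_mono h).trans hW) (res P h s) =
      resO (σ.preimage_mono h) (openVal U σ ev' W hW s) := by
  unfold openVal
  rw [H326.evFun_res ev' h s, toCutFun_resO U σ h, resO_resO, resO_resO]

theorem isUnit_openVal (ev' : P ⟶ funMod (U.ι ≫ σ)) (W : X.Opens) (hW : σ ⁻¹ᵁ W ≤ U)
    (s : Γ(P, W)) (h : IsUnit (H326.evFun ev' W s)) : IsUnit (openVal U σ ev' W hW s) :=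
  (isUnit_toCutFun U σ W h).map (T.presheaf.map (homOfLE (H326.le_cut hW le_rfl)).op).hom

/-- The local evaluation over `V` (with `σ⁻¹ V ⊆ U`) attached to an evaluation with values in
functions on `U`. -/
def locEvalOfOpen (V : X.Opens) (hV : σ ⁻¹ᵁ V ≤ U) (ev' : P ⟶ funMod (U.ι ≫ σ)) :
    LocHom V P (funMod σ) where
  app W hW := AddMonoidHom.mk'
    (fun s => pfOf σ (unitMod T) W
      (toUnit T _ (openVal U σ ev' W ((σ.preimage_mono hW).trans hV) s)))
    (fun s s' => by
      rw [openVal_add]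
      rfl)
  app_smul W hW r s := by
    simp only [AddMonoidHom.mk'_apply]
    rw [openVal_smul]
    rfl
  app_res W W' hW h s := by
    simp only [AddMonoidHom.mk'_apply]
    rw [openVal_res U σ ev' W W' ((σ.preimage_mono hW).trans hV) h s]
    rfl

theorem locVal_locEvalOfOpen (V : X.Opens) (hV : σ ⁻¹ᵁ V ≤ U) (ev' : P ⟶ funMod (U.ι ≫ σ))
    (W : X.Opens) (hW : W ≤ V) (s : Γ(P, W)) :
    locVal (locEvalOfOpen U σ V hV ev') W hW s =
      openVal U σ ev' W ((σ.preimage_mono hW).trans hV) s := rfl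

/-- A rigidification of `L` along `σ' : U ⟶ Y` (`U ⊆ T` open, `g : Y ⟶ X` an open immersion,
`σ' ≫ g = U.ι ≫ σ`) gives a local evaluation of `g_* L` over every open `V` with
`σ⁻¹ V ⊆ U`, which is a unit on generators. -/
theorem exists_locEval_of_rigidification (g : Y ⟶ X) [IsOpenImmersion g] (σ' : U.toScheme ⟶ Y)
    (hsq : σ' ≫ g = U.ι ≫ σ) (L : Y.Modules)
    (ρ : (pullback σ').obj L ≅ unitMod U.toScheme) (V : X.Opens) (hV : σ ⁻¹ᵁ V ≤ U) :
    ∃ e : LocHom V ((pushforward g).obj L) (funMod σ), LocUnitOnGen e := by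
  let ρ' : (pullback (U.ι ≫ σ)).obj ((pushforward g).obj L) ≅ unitMod U.toScheme :=
    (Scheme.Modules.pullbackCongr hsq.symm).app _ ≪≫
      (Scheme.Modules.pullbackComp σ' g).symm.app _ ≪≫
      (pullback σ').mapIso (pullbackPushforwardIso g L) ≪≫ ρ
  refine ⟨locEvalOfOpen U σ V hV
    ((Scheme.Modules.pullbackPushforwardAdjunction (U.ι ≫ σ)).homEquiv _ (unitMod U.toScheme)
      ρ'.hom), fun W hW s hs => ?_⟩
  rw [locVal_locEvalOfOpen]
  exact isUnit_openVal U σ _ W _ s (H326.isUnit_evFun_of_iso (U.ι ≫ σ) hs ρ')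

end EvalOpen

end Fermat.Agent.S25.H146
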