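/-
S25 helper (helper146), assembly AS6, part 4: **SHEAF-SEP**.

`Stmt.SheafSep c ε`: isomorphism of rigidified line bundles on `C ×ₖ T` is Zariski-local on `T`.
Proof: normalise the local isomorphisms with respect to the evaluation morphisms of the two
global rigidifications (Rigid.lean), so that they agree on overlaps, and glue (GlueSec.lean).
-/
import Mathlib
import Fermat.Agent.S25.Defs
import Fermat.Agent.S25.H205.GlobalSections
import Fermat.Agent.S25.H146.GlueSec

set_option autoImplicit false

universe u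

noncomputable section

open CategoryTheory CategoryTheory.Limits AlgebraicGeometry AlgebraicGeometry.RelPicard
  NeronModelInfra TopologicalSpace Opposite

namespace Fermat.Agent.S25.H146

open Fermat.Agent.S25.H626

section BaseChange

variable {k : Type u} [Field k] {C : Scheme.{u}} (c : C ⟶ Spec (CommRingCat.of k))
  {T : Scheme.{u}} (t : T ⟶ Spec (CommRingCat.of k))

/-- The open immersion `C ×ₖ U ⟶ C ×ₖ T` for an open `U ⊆ T`. -/
abbrev openBC (U : T.Opens) : pullback c (U.ι ≫ t) ⟶ pullback c t :=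
  baseChangeSnd c (⟨U.ι, rfl⟩ : SchemeHomOver (U.ι ≫ t) t)

instance isOpenImmersion_openBC (U : T.Opens) : IsOpenImmersion (openBC c t U) :=
  MorphismProperty.of_isPullback (P := @IsOpenImmersion)
    (H205.isPullback_baseChangeSnd c (⟨U.ι, rfl⟩ : SchemeHomOver (U.ι ≫ t) t)).flip
    (inferInstance : IsOpenImmersion U.ι)

theorem opensRange_congr {X Y : Scheme.{u}} {f g : Y ⟶ X} [IsOpenImmersion f]
    [IsOpenImmersion g] (h : f = g) : f.opensRange = g.opensRange := by
  subst h
  rfl

theorem opensRange_openBC (U : T.Opens) :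
    (openBC c t U).opensRange = (pullback.snd c t) ⁻¹ᵁ U := by
  have H := H205.isPullback_baseChangeSnd c (⟨U.ι, rfl⟩ : SchemeHomOver (U.ι ≫ t) t)
  have h1 : H.isoPullback.hom ≫ pullback.fst (pullback.snd c t) U.ι = openBC c t U :=
    H.isoPullback_hom_fst
  rw [opensRange_congr h1.symm, Scheme.Hom.opensRange_comp_of_isIso,
    Scheme.Hom.opensRange_pullbackFst, Scheme.Opens.opensRange_ι]

end BaseChange

section Main

variable (k : Type u) [Field k] [IsAlgClosed k] {C : Scheme.{u}}
  (c : C ⟶ Spec (CommRingCat.of k)) [IsProper c] [IsIntegral C]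
  (ε : SchemeHomOver (𝟙 (Spec (CommRingCat.of k))) c)

/-- **SHEAF-SEP** (frozen interface `Stmt.SheafSep` of `Fermat/Agent/S25/Defs.lean`):
isomorphism of rigidified line bundles is Zariski-local on the base. -/
theorem sheafSep : Stmt.SheafSep c ε := by
  intro T t ι U hU M M' hloc
  -- notation
  set σ : T ⟶ pullback c t := rigSection c t ε with hσ
  set π : pullback c t ⟶ T := pullback.snd c t with hπ
  -- evaluation morphisms
  have hL : HasLocalGenerators M.L := hasLocalGenerators_of_isInvertible M.isInvertible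
  have he : UnitOnGen (evalHom σ M.rigidified.some.hom) :=
    unitOnGen_of_isRigidification M.isInvertible (isRigidification_evalHom M.rigidified.some)
  have he' : UnitOnGen (evalHom σ M'.rigidified.some.hom) :=
    unitOnGen_of_isRigidification M'.isInvertible (isRigidification_evalHom M'.rigidified.some)
  -- the local isomorphisms, sectionwise
  have hrange : ∀ i, π ⁻¹ᵁ (U i) ≤ (openBC c t (U i)).opensRange := fun i =>
    (opensRange_openBC c t (U i)).ge
  have hnorm : ∀ i, ∃ f : SecHom M.L M'.L (π ⁻¹ᵁ (U i)), f.IsIso ∧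
      f.IsNormalized (evalHom σ M.rigidified.some.hom) (evalHom σ M'.rigidified.some.hom) := by
    intro i
    obtain ⟨φ⟩ := hloc i
    exact SecHom.exists_isNormalized hL he he' (U i)
      (H205.rigSection_preimage_snd_preimage c t ε (U i)).ge
      (H205.rigSection_preimage_snd_preimage c t ε (U i)).le
      (H205.rigRestrict_bijective k c t ε (U i))
      (secHomOfPullbackHom (openBC c t (U i)) φ.hom _ (hrange i))
      (isIso_secHomOfPullbackIso (openBC c t (U i)) φ _ (hrange i))
  choose f hfiso hfnorm using hnorm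
  -- compatibility on overlaps
  have hcompat : ∀ (i j : ι) (W : (pullback c t).Opens) (hi : W ≤ π ⁻¹ᵁ (U i))
      (hj : W ≤ π ⁻¹ᵁ (U j)) (s : Γ(M.L, W)), (f i).app W hi s = (f j).app W hj s := by
    intro i j W hi hj s
    have hle_i : π ⁻¹ᵁ (U i ⊓ U j) ≤ π ⁻¹ᵁ (U i) := π.preimage_mono inf_le_left
    have hle_j : π ⁻¹ᵁ (U i ⊓ U j) ≤ π ⁻¹ᵁ (U j) := π.preimage_mono inf_le_right
    have key : (f i).restrict hle_i = (f j).restrict hle_j :=
      SecHom.eq_of_isNormalized hL he (U i ⊓ U j)
        (H205.rigSection_preimage_snd_preimage c t ε (U i ⊓ U j)).ge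
        (fun a ha => H205.eq_one_of_rigRestrict_eq_one k c t ε (U i ⊓ U j) a ha)
        (SecHom.isIso_restrict (hfiso j) hle_j)
        (SecHom.isNormalized_restrict (hfnorm i) hle_i)
        (SecHom.isNormalized_restrict (hfnorm j) hle_j)
    have hW : W ≤ π ⁻¹ᵁ (U i ⊓ U j) := le_inf hi hj
    exact congrArg (fun g : SecHom M.L M'.L (π ⁻¹ᵁ (U i ⊓ U j)) => g.app W hW s) key
  -- glue
  have hcover : ⨆ i, π ⁻¹ᵁ (U i) = ⊤ := by
    rw [← Scheme.Hom.preimage_iSup, hU]
    rfl
  obtain ⟨ψ, hψ⟩ := exists_hom_of_secHoms (fun i => π ⁻¹ᵁ (U i)) hcover f hcompat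
  have hiso : IsIso ψ := isIso_of_secHoms (fun i => π ⁻¹ᵁ (U i)) hcover f hfiso ψ hψ
  exact ⟨asIso ψ⟩

end Main

end Fermat.Agent.S25.H146
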