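/-
S25 helper (helper146), assembly AS6, part 8: **SHEAF-GLUE**.

`Stmt.SheafGlue c ε`: rigidified line bundles on `C ×ₖ U i` (for a Zariski cover `U i` of `T`)
which are isomorphic on the overlaps glue to a rigidified line bundle on `C ×ₖ T`.  No cocycle
condition is needed: the isomorphisms on the overlaps are normalised with respect to the
rigidifications, and normalised isomorphisms are unique (`Γ(C ×ₖ U, 𝒪) = Γ(U, 𝒪)`).

Proof: push the bundles forward to `X = C ×ₖ T` along the open immersions `C ×ₖ U i ⟶ X`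
(OpenImm.lean), glue sectionwise (GlueRigid.lean, on top of `H326.exists_glue`), and obtain the
rigidification of the glued module from the glued evaluation (`H326.nonempty_iso_of_isRigidifying`).
-/
import Mathlib
import Fermat.Agent.S25.Defs
import Fermat.Agent.S25.H205.GlobalSections
import Fermat.Agent.S25.H206.InvertibleLocal
import Fermat.Agent.S25.H146.SheafSep
import Fermat.Agent.S25.H146.GlueRigid
import Fermat.Agent.S25.H146.OpenImm

set_option autoImplicit false

universe u

noncomputable section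

open CategoryTheory CategoryTheory.Limits AlgebraicGeometry AlgebraicGeometry.RelPicard
  NeronModelInfra TopologicalSpace Opposite

namespace Fermat.Agent.S25.H146

open Fermat.Agent.S25.H626
open Fermat.Agent.S25.H326 (LocHom funMod)

section BaseChange

variable {k : Type u} [Field k] {C : Scheme.{u}} (c : C ⟶ Spec (CommRingCat.of k))
  {T : Scheme.{u}} (t : T ⟶ Spec (CommRingCat.of k))

/-- `C ×ₖ U' ⟶ C ×ₖ U ⟶ C ×ₖ T` is `C ×ₖ U' ⟶ C ×ₖ T`, for opens `U' ≤ U` of `T`. -/
theorem baseChangeSnd_homOfLE_comp_openBC {U U' : T.Opens} (h : U' ≤ U)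
    (hp : T.homOfLE h ≫ (U.ι ≫ t) = U'.ι ≫ t) :
    baseChangeSnd c (⟨T.homOfLE h, hp⟩ : SchemeHomOver (U'.ι ≫ t) (U.ι ≫ t)) ≫ openBC c t U =
      openBC c t U' := by
  unfold openBC
  rw [baseChangeSnd_comp]
  congr 1
  apply Subtype.ext
  exact T.homOfLE_ι h

end BaseChange

section Main

variable (k : Type u) [Field k] [IsAlgClosed k] {C : Scheme.{u}}
  (c : C ⟶ Spec (CommRingCat.of k)) [IsProper c] [IsIntegral C]
  (ε : SchemeHomOver (𝟙 (Spec (CommRingCat.of k))) c)

/-- F5 in the form needed for gluing: restriction of functions along the rigidifying section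
is bijective over every open of the form `pr₂⁻¹ U`. -/
theorem restrictionBijective_preimage {T : Scheme.{u}} (t : T ⟶ Spec (CommRingCat.of k))
    (U : T.Opens) :
    RestrictionBijective (rigSection c t ε) ((pullback.snd c t) ⁻¹ᵁ U) :=
  ⟨U, (H205.rigSection_preimage_snd_preimage c t ε U).ge,
    (H205.rigSection_preimage_snd_preimage c t ε U).le, H205.rigRestrict_bijective k c t ε U⟩

/-- **SHEAF-GLUE** (frozen interface `Stmt.SheafGlue` of `Fermat/Agent/S25/Defs.lean`):
rigidified line bundles glue along a Zariski cover of the base as soon as they are isomorphic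
on the pairwise overlaps. -/
theorem sheafGlue : Stmt.SheafGlue c ε := by
  intro T t ι U hU M hloc
  -- notation
  set σ : T ⟶ pullback c t := rigSection c t ε with hσ
  set π : pullback c t ⟶ T := pullback.snd c t with hπ
  let g : ∀ i, pullback c ((U i).ι ≫ t) ⟶ pullback c t := fun i => openBC c t (U i)
  have hrange : ∀ i, (g i).opensRange = π ⁻¹ᵁ (U i) := fun i => opensRange_openBC c t (U i)
  have hsq : ∀ i, rigSection c ((U i).ι ≫ t) ε ≫ g i = (U i).ι ≫ σ := fun i =>
    rigSection_baseChangeSnd c ε (⟨(U i).ι, rfl⟩ : SchemeHomOver ((U i).ι ≫ t) t)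
  have hσπ : ∀ U' : T.Opens, σ ⁻¹ᵁ (π ⁻¹ᵁ U') = U' := fun U' =>
    H205.rigSection_preimage_snd_preimage c t ε U'
  have hcover : ⨆ i, π ⁻¹ᵁ (U i) = ⊤ := by
    rw [← Scheme.Hom.preimage_iSup, hU]
    rfl
  -- the pushforwards
  let P : ι → (pullback c t).Modules := fun i =>
    (Scheme.Modules.pushforward (g i)).obj (M i).L
  have hP : ∀ i, HasLocalGeneratorsOn (P i) (π ⁻¹ᵁ (U i)) := fun i =>
    hasLocalGeneratorsOn_mono
      (hasLocalGeneratorsOn_pushforward (g i) (M i).L
        (hasLocalGenerators_of_isInvertible (M i).isInvertible))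
      (hrange i).ge
  -- the local evaluations
  have hev : ∀ i, ∃ e : LocHom (π ⁻¹ᵁ (U i)) (P i) (funMod σ), LocUnitOnGen e := fun i =>
    exists_locEval_of_rigidification (U i) σ (g i) (rigSection c ((U i).ι ≫ t) ε) (hsq i)
      (M i).L (M i).rigidified.some (π ⁻¹ᵁ (U i)) (hσπ (U i)).le
  choose e he using hev
  -- the sectionwise isomorphisms on the overlaps
  have hθ : ∀ i j, ∃ f : LocHom (π ⁻¹ᵁ (U i) ⊓ π ⁻¹ᵁ (U j)) (P i) (P j), LocBij f := by
    intro i j
    obtain ⟨φ⟩ := hloc i j
    exact exists_locBij_of_pullback_iso (g i) (g j) (openBC c t (U i ⊓ U j)) _ _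
      (baseChangeSnd_homOfLE_comp_openBC c t inf_le_left _)
      (baseChangeSnd_homOfLE_comp_openBC c t inf_le_right _)
      (M i).L (M j).L φ _ (opensRange_openBC c t (U i ⊓ U j)).ge
  -- glue
  obtain ⟨M₀, ev, f, hfb, -, hrig⟩ := exists_glue_rigid σ (fun i => π ⁻¹ᵁ (U i)) hcover
    (fun i j => restrictionBijective_preimage k c ε t (U i ⊓ U j))
    (fun i j l => restrictionBijective_preimage k c ε t (U i ⊓ U j ⊓ U l))
    P hP e he hθ
  -- the restrictions of the glued module
  have hiso : ∀ i, Nonempty ((Scheme.Modules.pullback (g i)).obj M₀ ≅ (M i).L) := fun i =>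
    nonempty_iso_of_locBij (g i) ((f i).restrict (hrange i).le)
      (locBij_restrict (hfb i) (hrange i).le)
  have hcov : ∀ x : ↥(pullback c t), ∃ i, x ∈ Set.range (g i) := by
    intro x
    have hx : x ∈ ⨆ i, π ⁻¹ᵁ (U i) := by rw [hcover]; trivial
    obtain ⟨i, hi⟩ := Opens.mem_iSup.mp hx
    have hi' : x ∈ (g i).opensRange := by rw [hrange i]; exact hi
    exact ⟨i, hi'⟩
  have hinv : Scheme.Modules.IsInvertible M₀ :=
    H206.isInvertible_of_openImmersion_cover M₀ (fun i => pullback c ((U i).ι ≫ t)) g hcov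
      (fun i => H206.isInvertible_of_iso (hiso i).some.symm (M i).isInvertible)
  exact ⟨⟨M₀, hinv, H326.nonempty_iso_of_isRigidifying ev hrig⟩, hiso⟩

end Main

end Fermat.Agent.S25.H146
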